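import Fermat.Agent.S29.HeckeX
import Fermat.Agent.S16.Lower

/-!
# S31/LAT : the Hecke algebra acts faithfully on the lattice `XN N = Hom_par(Γ₀(N), ℤ)`

`kap : heckeAlgebra N 2 S →+* Module.End ℤ (XN N)`, characterised by
`periodHomPair (f, g) = castC c → periodHomPair (t f, t g) = castC (kap t c)`; injective;
`kap (T_ℓ) = heckeX`.
-/

set_option autoImplicit false

open ModularCurve CongruenceSubgroup CuspForm
open ModularCurve.Period Fermat.Agent.S16.Lower Fermat.Agent.S29 Fermat.Agent.S29.HeckeXAux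
open scoped MatrixGroups

noncomputable section

namespace Fermat.Agent.S31

variable {N : ℕ} [NeZero N] {S : Set ℕ}

omit [NeZero N] in
/-- an integer valued complex homomorphism comes from an integral one -/
theorem exists_castC_eq (ψ : Additive (Gamma0 N) →+ ℂ) (h : ∀ γ, ∃ k : ℤ, ψ γ = (k : ℂ)) :
    ∃ c : Additive (Gamma0 N) →+ ℤ, castC N c = ψ := by
  choose k hk using h
  refine ⟨AddMonoidHom.mk' k (fun a b => ?_), AddMonoidHom.ext fun γ => ?_⟩
  · have : ((k (a + b) : ℤ) : ℂ) = ((k a + k b : ℤ) : ℂ) := by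
      rw [← hk, map_add, hk, hk, Int.cast_add]
    exact_mod_cast this
  · rw [castC_apply, hk]; rfl

theorem exists_kap_apply (t : heckeAlgebra N 2 S) (c : XN N) :
    ∃ c' : XN N, ∀ f g : CuspForm (Gamma0 N) 2,
      periodHomPair N (f, g) = castC N (c : Additive (Gamma0 N) →+ ℤ) →
      periodHomPair N ((t : Module.End ℂ (CuspForm (Gamma0 N) 2)) f,
        (t : Module.End ℂ (CuspForm (Gamma0 N) 2)) g) =
        castC N (c' : Additive (Gamma0 N) →+ ℤ) := by
  obtain ⟨f₀, g₀, h₀⟩ := exists_pair (castC_mem c.2)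
  have ht : (t : Module.End ℂ (CuspForm (Gamma0 N) 2)) ∈ heckeAlgebra N 2 ∅ :=
    heckeAlgebra_mono (Set.empty_subset S) t.2
  have hint : IntVal 1 (periodHomPair N (f₀, g₀)) := by
    intro γ
    exact ⟨(c : Additive (Gamma0 N) →+ ℤ) (Additive.ofMul γ), by rw [h₀, castC_apply, one_mul]⟩
  have hint' := intVal_of_mem_heckeAlgebra 1 ht f₀ g₀ hint
  obtain ⟨c', hc'⟩ := exists_castC_eq (periodHomPair N
      ((t : Module.End ℂ (CuspForm (Gamma0 N) 2)) f₀,
        (t : Module.End ℂ (CuspForm (Gamma0 N) 2)) g₀)) (fun γ => by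
    obtain ⟨k, hk⟩ := hint' (Additive.toMul γ)
    exact ⟨k, by rw [one_mul] at hk; exact hk⟩)
  have hpar : c' ∈ XN N := by
    intro γ hγ
    have h1 := periodHomPair_mem N ((t : Module.End ℂ (CuspForm (Gamma0 N) 2)) f₀,
        (t : Module.End ℂ (CuspForm (Gamma0 N) 2)) g₀) γ hγ
    rw [← hc', castC_apply] at h1
    exact_mod_cast h1
  refine ⟨⟨c', hpar⟩, fun f g h => ?_⟩
  have h1 : (f, g) = (f₀, g₀) := (Fermat.Agent.S21.result N).1 (h.trans h₀.symm)
  rw [Prod.mk.injEq] at h1
  rw [h1.1, h1.2]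
  exact hc'.symm

/-- the underlying function of `kap` -/
def kapFun (t : heckeAlgebra N 2 S) (c : XN N) : XN N := (exists_kap_apply t c).choose

theorem kapFun_spec (t : heckeAlgebra N 2 S) (c : XN N) (f g : CuspForm (Gamma0 N) 2)
    (h : periodHomPair N (f, g) = castC N (c : Additive (Gamma0 N) →+ ℤ)) :
    periodHomPair N ((t : Module.End ℂ (CuspForm (Gamma0 N) 2)) f,
        (t : Module.End ℂ (CuspForm (Gamma0 N) 2)) g) =
      castC N (kapFun t c : Additive (Gamma0 N) →+ ℤ) :=
  (exists_kap_apply t c).choose_spec f g h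

/-- uniqueness -/
theorem eq_kapFun (t : heckeAlgebra N 2 S) (c c' : XN N) (f g : CuspForm (Gamma0 N) 2)
    (h : periodHomPair N (f, g) = castC N (c : Additive (Gamma0 N) →+ ℤ))
    (h' : periodHomPair N ((t : Module.End ℂ (CuspForm (Gamma0 N) 2)) f,
        (t : Module.End ℂ (CuspForm (Gamma0 N) 2)) g) =
      castC N (c' : Additive (Gamma0 N) →+ ℤ)) : kapFun t c = c' :=
  Subtype.ext (castC_injective N ((kapFun_spec t c f g h).symm.trans h'))

/-- `kap t` as a linear map -/
def kapLin (t : heckeAlgebra N 2 S) : Module.End ℤ (XN N) where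
  toFun := kapFun t
  map_add' c d := by
    obtain ⟨f, g, h⟩ := exists_pair (castC_mem c.2)
    obtain ⟨f', g', h'⟩ := exists_pair (castC_mem d.2)
    apply eq_kapFun t (c + d) _ (f + f') (g + g')
    · have : ((f + f', g + g') : CuspForm (Gamma0 N) 2 × CuspForm (Gamma0 N) 2) =
          (f, g) + (f', g') := rfl
      rw [this, map_add, h, h', Submodule.coe_add, map_add]
    · have : (((t : Module.End ℂ (CuspForm (Gamma0 N) 2)) (f + f'),
          (t : Module.End ℂ (CuspForm (Gamma0 N) 2)) (g + g')) :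
          CuspForm (Gamma0 N) 2 × CuspForm (Gamma0 N) 2) =
          ((t : Module.End ℂ (CuspForm (Gamma0 N) 2)) f,
            (t : Module.End ℂ (CuspForm (Gamma0 N) 2)) g) +
          ((t : Module.End ℂ (CuspForm (Gamma0 N) 2)) f',
            (t : Module.End ℂ (CuspForm (Gamma0 N) 2)) g') := by
        rw [map_add, map_add]; rfl
      rw [this, map_add, kapFun_spec t c f g h, kapFun_spec t d f' g' h', Submodule.coe_add, map_add]
  map_smul' r c := by
    obtain ⟨f, g, h⟩ := exists_pair (castC_mem c.2)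
    apply eq_kapFun t (r • c) _ (r • f) (r • g)
    · have : ((r • f, r • g) : CuspForm (Gamma0 N) 2 × CuspForm (Gamma0 N) 2) = r • (f, g) := rfl
      rw [this, map_zsmul, h, Submodule.coe_smul, map_zsmul]
    · have : (((t : Module.End ℂ (CuspForm (Gamma0 N) 2)) (r • f),
          (t : Module.End ℂ (CuspForm (Gamma0 N) 2)) (r • g)) :
          CuspForm (Gamma0 N) 2 × CuspForm (Gamma0 N) 2) =
          r • ((t : Module.End ℂ (CuspForm (Gamma0 N) 2)) f,
            (t : Module.End ℂ (CuspForm (Gamma0 N) 2)) g) := by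
        rw [map_zsmul, map_zsmul]; rfl
      rw [this, map_zsmul, kapFun_spec t c f g h, RingHom.id_apply, Submodule.coe_smul, map_zsmul]

theorem kapLin_apply (t : heckeAlgebra N 2 S) (c : XN N) : kapLin t c = kapFun t c := rfl

/-- the action of the Hecke algebra on the lattice -/
def kap : heckeAlgebra N 2 S →+* Module.End ℤ (XN N) where
  toFun := kapLin
  map_one' := by
    refine LinearMap.ext fun c => ?_
    obtain ⟨f, g, h⟩ := exists_pair (castC_mem c.2)
    exact eq_kapFun 1 c c f g h h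
  map_mul' t s := by
    refine LinearMap.ext fun c => ?_
    obtain ⟨f, g, h⟩ := exists_pair (castC_mem c.2)
    exact eq_kapFun (t * s) c _ f g h (kapFun_spec t _ _ _ (kapFun_spec s c f g h))
  map_zero' := by
    refine LinearMap.ext fun c => ?_
    obtain ⟨f, g, h⟩ := exists_pair (castC_mem c.2)
    refine eq_kapFun 0 c 0 f g h ?_
    have : ((((0 : heckeAlgebra N 2 S) : Module.End ℂ (CuspForm (Gamma0 N) 2)) f,
        ((0 : heckeAlgebra N 2 S) : Module.End ℂ (CuspForm (Gamma0 N) 2)) g) :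
        CuspForm (Gamma0 N) 2 × CuspForm (Gamma0 N) 2) = 0 := rfl
    rw [this, map_zero, Submodule.coe_zero, map_zero]
  map_add' t s := by
    refine LinearMap.ext fun c => ?_
    obtain ⟨f, g, h⟩ := exists_pair (castC_mem c.2)
    refine eq_kapFun (t + s) c _ f g h ?_
    have : ((((t + s : heckeAlgebra N 2 S) : Module.End ℂ (CuspForm (Gamma0 N) 2)) f,
        ((t + s : heckeAlgebra N 2 S) : Module.End ℂ (CuspForm (Gamma0 N) 2)) g) :
        CuspForm (Gamma0 N) 2 × CuspForm (Gamma0 N) 2) =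
        ((t : Module.End ℂ (CuspForm (Gamma0 N) 2)) f,
          (t : Module.End ℂ (CuspForm (Gamma0 N) 2)) g) +
        ((s : Module.End ℂ (CuspForm (Gamma0 N) 2)) f,
          (s : Module.End ℂ (CuspForm (Gamma0 N) 2)) g) := rfl
    rw [this, map_add, kapFun_spec t c f g h, kapFun_spec s c f g h, LinearMap.add_apply,
      Submodule.coe_add, map_add]
    rfl

theorem kap_spec (t : heckeAlgebra N 2 S) (c : XN N) (f g : CuspForm (Gamma0 N) 2)
    (h : periodHomPair N (f, g) = castC N (c : Additive (Gamma0 N) →+ ℤ)) :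
    periodHomPair N ((t : Module.End ℂ (CuspForm (Gamma0 N) 2)) f,
        (t : Module.End ℂ (CuspForm (Gamma0 N) 2)) g) =
      castC N (kap t c : Additive (Gamma0 N) →+ ℤ) :=
  kapFun_spec t c f g h

theorem kap_T {ℓ : ℕ} (hℓ : ℓ.Prime) (hℓN : ¬ ℓ ∣ N) (hℓS : ℓ ∉ S) :
    kap (heckeAlgebra.T hℓ hℓN hℓS : heckeAlgebra N 2 S) = heckeX N hℓ hℓN := by
  refine LinearMap.ext fun c => ?_
  obtain ⟨f, g, h⟩ := exists_pair (castC_mem c.2)
  exact eq_kapFun _ c _ f g h (castC_heckeX hℓ hℓN c f g h)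

theorem kap_injective : Function.Injective (kap : heckeAlgebra N 2 S →+* Module.End ℤ (XN N)) := by
  rw [injective_iff_map_eq_zero]
  intro t ht
  apply Subtype.ext
  refine LinearMap.ext fun f => ?_
  have key : ∀ x : TensorProduct ℤ ℂ (XN N), ∃ f g : CuspForm (Gamma0 N) 2,
      periodHomPair N (f, g) = Phi N x ∧
      (t : Module.End ℂ (CuspForm (Gamma0 N) 2)) f = 0 := by
    intro x
    induction x using TensorProduct.induction_on with
    | zero => exact ⟨0, 0, by rw [map_zero]; exact map_zero _, map_zero _⟩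
    | tmul z c =>
      obtain ⟨f₀, g₀, h₀⟩ := exists_pair (castC_mem c.2)
      have h1 := kap_spec t c f₀ g₀ h₀
      rw [ht, LinearMap.zero_apply, Submodule.coe_zero, map_zero] at h1
      have h2 : ((t : Module.End ℂ (CuspForm (Gamma0 N) 2)) f₀,
          (t : Module.End ℂ (CuspForm (Gamma0 N) 2)) g₀) =
          (0 : CuspForm (Gamma0 N) 2 × CuspForm (Gamma0 N) 2) :=
        (Fermat.Agent.S21.result N).1 (h1.trans (map_zero _).symm)
      have h5 : (t : Module.End ℂ (CuspForm (Gamma0 N) 2)) f₀ = 0 := congrArg Prod.fst h2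
      refine ⟨z • f₀, z • g₀, ?_, by rw [map_smul, h5, smul_zero]⟩
      have : ((z • f₀, z • g₀) : CuspForm (Gamma0 N) 2 × CuspForm (Gamma0 N) 2) = z • (f₀, g₀) := rfl
      rw [this, map_smul, h₀, Phi_tmul]
    | add x y hx hy =>
      obtain ⟨f₁, g₁, h₁, k₁⟩ := hx
      obtain ⟨f₂, g₂, h₂, k₂⟩ := hy
      refine ⟨f₁ + f₂, g₁ + g₂, ?_, by rw [map_add, k₁, k₂, add_zero]⟩
      have : ((f₁ + f₂, g₁ + g₂) : CuspForm (Gamma0 N) 2 × CuspForm (Gamma0 N) 2) =
          (f₁, g₁) + (f₂, g₂) := rfl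
      rw [this, map_add, map_add, h₁, h₂]
  obtain ⟨x, hx⟩ := exists_Phi_eq N (periodHomPair_mem N (f, 0))
  obtain ⟨f', g', h', k'⟩ := key x
  have h1 : (f', g') = (f, (0 : CuspForm (Gamma0 N) 2)) :=
    (Fermat.Agent.S21.result N).1 (h'.trans hx)
  have h2 : f' = f := congrArg Prod.fst h1
  rw [← h2, k']
  rfl

end Fermat.Agent.S31
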