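import Fermat.Agent.S29.Abstract

/-!
# S31/CY : the cyclotomic character modulo `p ^ m`

Same proof as `Fermat.Agent.S29.AbstractAux.exists_cyclo` (mod `p`), with a primitive `p ^ m`-th root
of unity `ζ` and `χ = hζ.autToPow ℚ`.  The only new point: the `n`-th roots of unity are distinct
modulo a place `A` over `ℓ ∤ n` (`CycloAux.pow_eq_of_sub_mem'`): if `η ≠ 1`, `η ^ n = 1`,
`η - 1 ∈ 𝔪_A`, then `0 = ∑_{i < n} η ^ i ≡ n` modulo `𝔪_A`.
-/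

set_option autoImplicit false

namespace Fermat.Agent.S31

open Fermat.Agent.S29 Fermat.Agent.S29.AbstractAux

namespace CycloAux

/-- `n`-th roots of unity are distinct modulo a place over `ℓ ∤ n` -/
theorem pow_eq_of_sub_mem' (A : ValuationSubring Qb) {ℓ n : ℕ} (hℓ : ℓ.Prime) (hn : 0 < n)
    (hne : ¬ ℓ ∣ n) (hA : A.LiesOverPrime ℓ) {ζ : Qb} (hζ : IsPrimitiveRoot ζ n) (a b : ℕ)
    (h : ζ ^ a - ζ ^ b ∈ A.nonunits) : ζ ^ a = ζ ^ b := by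
  by_contra hab
  have hζA : ∀ k : ℕ, ζ ^ k ∈ A := fun k =>
    Frob.mem_of_isIntegral A ((hζ.isIntegral hn).pow k)
  obtain ⟨c, hc⟩ : ∃ c : ℕ, ζ ^ b * ζ ^ c = 1 := by
    refine ⟨(n - 1) * b, ?_⟩
    rw [← pow_add]
    have : b + (n - 1) * b = n * b := by
      obtain ⟨q, rfl⟩ : ∃ q, n = q + 1 := ⟨n - 1, by omega⟩
      simp; ring
    rw [this, pow_mul, hζ.pow_eq_one, one_pow]
  set η : Qb := ζ ^ (a + c) with hη
  have hη1 : η ≠ 1 := by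
    intro h1
    apply hab
    have : ζ ^ a * ζ ^ c = ζ ^ b * ζ ^ c := by rw [hc, ← pow_add]; exact h1
    exact mul_right_cancel₀ (pow_ne_zero _ (hζ.ne_zero hn.ne')) this
  have hηp : η ^ n = 1 := by rw [hη, ← pow_mul, mul_comm, pow_mul, hζ.pow_eq_one, one_pow]
  have hηm : η - 1 ∈ A.nonunits := by
    have : η - 1 = (ζ ^ a - ζ ^ b) * ζ ^ c := by rw [sub_mul, hc, hη, pow_add]
    rw [this]
    exact Frob.mul_mem_nonunits A h (hζA c)
  have hηA : ∀ k : ℕ, η ^ k ∈ A := fun k => by rw [hη, ← pow_mul]; exact hζA _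
  have hsum : ∑ i ∈ Finset.range n, η ^ i = 0 := by
    have := mul_neg_geom_sum η n
    rw [hηp, sub_self] at this
    rcases mul_eq_zero.mp this with h0 | h0
    · exact absurd (sub_eq_zero.mp h0).symm hη1
    · exact h0
  have hpm : (n : Qb) ∈ A.nonunits := by
    have h1 : (n : Qb) = - ∑ i ∈ Finset.range n, (η ^ i - 1) := by
      rw [Finset.sum_sub_distrib, hsum]; simp
    rw [h1]
    have h2 : ∀ i : ℕ, η ^ i - 1 ∈ A.nonunits := by
      intro i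
      have : η ^ i - 1 = (η - 1) * ∑ j ∈ Finset.range i, η ^ j := by
        rw [mul_comm, geom_sum_mul]
      rw [this]
      exact Frob.mul_mem_nonunits A hηm (A.toSubring.sum_mem fun j _ => hηA j)
    have h3 : ∀ s : Finset ℕ, ∑ i ∈ s, (η ^ i - 1) ∈ A.nonunits ∨ ∑ i ∈ s, (η ^ i - 1) = 0 := by
      intro s
      classical
      induction s using Finset.induction_on with
      | empty => right; simp
      | insert x s hx ih =>
        rw [Finset.sum_insert hx]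
        rcases ih with ih | ih
        · left; exact A.nonunits.add_mem (h2 x) ih
        · left; rw [ih, add_zero]; exact h2 x
    rcases h3 (Finset.range n) with h4 | h4
    · rw [ValuationSubring.mem_nonunits_iff] at h4 ⊢
      rwa [Valuation.map_neg]
    · rw [h4, neg_zero, ValuationSubring.mem_nonunits_iff, map_zero]
      exact zero_lt_one
  have := Frob.int_not_mem_nonunits A hℓ hA (c := (n : ℤ)) (by
    intro hd
    exact hne (by exact_mod_cast hd))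
  exact this (by exact_mod_cast hpm)

/-- the cyclotomic character modulo an arbitrary `n ≥ 1` -/
theorem exists_cyclo_nat (n : ℕ) [NeZero n] :
    ∃ χ : GQ →* (ZMod n)ˣ,
      (∃ L : IntermediateField ℚ Qb, FiniteDimensional ℚ L ∧
        ∀ σ : GQ, (∀ x ∈ L, σ x = x) → χ σ = 1) ∧
      (∀ ℓ : ℕ, ℓ.Prime → ¬ ℓ ∣ n → ∀ A : ValuationSubring Qb, A.LiesOverPrime ℓ →
        ∀ σ : GQ, A.IsFrobeniusAt σ ℓ → ((χ σ : (ZMod n)ˣ) : ZMod n) = (ℓ : ZMod n)) ∧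
      (∀ ℓ : ℕ, ℓ.Prime → ¬ ℓ ∣ n → ∀ A : ValuationSubring Qb, A.LiesOverPrime ℓ →
        ∀ σ ∈ A.inertiaSubgroupIn ℚ, χ σ = 1) ∧
      (∀ (σ : GQ) (μ : Qb), μ ^ n = 1 → σ μ = μ ^ ((χ σ : (ZMod n)ˣ) : ZMod n).val) := by
  have hn : 0 < n := Nat.pos_of_ne_zero (NeZero.ne n)
  obtain ⟨ζ, hζ⟩ := HasEnoughRootsOfUnity.exists_primitiveRoot Qb n
  set χ₀ : GQ →* (ZMod n)ˣ := hζ.autToPow ℚ with hχ₀
  have hspec : ∀ σ : GQ, ζ ^ ((χ₀ σ : (ZMod n)ˣ) : ZMod n).val = σ ζ := fun σ =>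
    hζ.autToPow_spec ℚ σ
  have hζA : ∀ A : ValuationSubring Qb, ζ ∈ A := fun A =>
    Frob.mem_of_isIntegral A (hζ.isIntegral hn)
  have key : ∀ (σ : GQ) (k : ℕ), σ ζ = ζ ^ k → ((χ₀ σ : (ZMod n)ˣ) : ZMod n) = (k : ZMod n) := by
    intro σ k h
    rw [← hspec σ] at h
    have hfo : IsOfFinOrder ζ := isOfFinOrder_iff_pow_eq_one.mpr ⟨n, hn, hζ.pow_eq_one⟩
    have := hfo.pow_eq_pow_iff_modEq.mp h
    rw [← hζ.eq_orderOf] at this
    have h2 := (ZMod.natCast_eq_natCast_iff _ _ _).mpr this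
    rwa [ZMod.natCast_val, ZMod.cast_id', id] at h2
  refine ⟨χ₀, ?_, ?_, ?_, ?_⟩
  · refine ⟨IntermediateField.adjoin ℚ {ζ}, ?_, ?_⟩
    · exact IntermediateField.adjoin.finiteDimensional
        ((AlgebraicClosure.isAlgebraic ℚ).isAlgebraic ζ).isIntegral
    · intro σ hσ
      have h1 : σ ζ = ζ ^ 1 := by
        rw [pow_one]; exact hσ ζ (IntermediateField.mem_adjoin_simple_self ℚ ζ)
      have h2 := key σ 1 h1
      exact Units.ext (by rw [h2]; simp)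
  · intro ℓ hℓ hne A hA σ hσ
    have h1 := frob_sub_mem A hσ (hζA A)
    rw [← hspec σ] at h1
    have h2 := pow_eq_of_sub_mem' A hℓ hn hne hA hζ _ _ h1
    rw [hspec σ] at h2
    exact key σ ℓ h2
  · intro ℓ hℓ hne A hA σ hσ
    have h1 := inertia_sub_mem A hσ (hζA A)
    rw [← hspec σ] at h1
    nth_rewrite 2 [← pow_one ζ] at h1
    have h2 := pow_eq_of_sub_mem' A hℓ hn hne hA hζ _ _ h1
    rw [hspec σ] at h2
    have h3 := key σ 1 h2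
    exact Units.ext (by rw [h3]; simp)
  · intro σ μ hμ
    obtain ⟨i, -, rfl⟩ := hζ.eq_pow_of_pow_eq_one hμ
    rw [map_pow, ← hspec σ, ← pow_mul, ← pow_mul, mul_comm]

end CycloAux

theorem exists_cyclo_pow {p : ℕ} (hp : p.Prime) (m : ℕ) :
    ∃ χ : GQ →* (ZMod (p ^ m))ˣ,
      (∃ L : IntermediateField ℚ Qb, FiniteDimensional ℚ L ∧
        ∀ σ : GQ, (∀ x ∈ L, σ x = x) → χ σ = 1) ∧
      (∀ ℓ : ℕ, ℓ.Prime → ℓ ≠ p → ∀ A : ValuationSubring Qb, A.LiesOverPrime ℓ →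
        ∀ σ : GQ, A.IsFrobeniusAt σ ℓ → ((χ σ : (ZMod (p ^ m))ˣ) : ZMod (p ^ m)) = (ℓ : ZMod (p ^ m))) ∧
      (∀ ℓ : ℕ, ℓ.Prime → ℓ ≠ p → ∀ A : ValuationSubring Qb, A.LiesOverPrime ℓ →
        ∀ σ ∈ A.inertiaSubgroupIn ℚ, χ σ = 1) := by
  have : NeZero (p ^ m) := ⟨pow_ne_zero _ hp.ne_zero⟩
  have hnd : ∀ ℓ : ℕ, ℓ.Prime → ℓ ≠ p → ¬ ℓ ∣ p ^ m := fun ℓ hℓ hne hd =>
    hne ((Nat.prime_dvd_prime_iff_eq hℓ hp).mp (hℓ.dvd_of_dvd_pow hd))
  obtain ⟨χ, h1, h2, h3, -⟩ := CycloAux.exists_cyclo_nat (p ^ m)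
  exact ⟨χ, h1, fun ℓ hℓ hne => h2 ℓ hℓ (hnd ℓ hℓ hne), fun ℓ hℓ hne => h3 ℓ hℓ (hnd ℓ hℓ hne)⟩

end Fermat.Agent.S31
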