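import Mathlib

/-!
# S31/DK : Dickson (Lucas) sequences

`dk s d b` is the sequence `2, s, s² - 2d, …` with `dk (b+2) = s * dk (b+1) - d * dk b`, in any ring.
* it commutes with ring homomorphisms;
* `dk (x + y) (x * y) b = x ^ b + y ^ b` for commuting `x, y`;
* `tr (M ^ b) = dk (tr M) (det M) b` for `2 × 2` matrices (Cayley–Hamilton
  `M ^ 2 = tr M • M - det M • 1`, multiply by `M ^ b`, take traces);
* the same for an endomorphism of a free module of rank `2` with characteristic polynomial
  `X² - s X + d`.
-/

set_option autoImplicit false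

open Polynomial

namespace Fermat.Agent.S31

/-- Dickson / Lucas sequence -/
def dk {R : Type*} [Ring R] (s d : R) : ℕ → R
  | 0 => 2
  | 1 => s
  | (b + 2) => s * dk s d (b + 1) - d * dk s d b

theorem map_dk {R R' : Type*} [Ring R] [Ring R'] (f : R →+* R') (s d : R) (b : ℕ) :
    f (dk s d b) = dk (f s) (f d) b := by
  induction b using Nat.twoStepInduction with
  | zero => simp only [dk]; exact map_ofNat f 2
  | one => simp [dk]
  | more n ih0 ih1 => simp only [dk, map_sub, map_mul, ih0, ih1]

theorem dk_add_mul {R : Type*} [Ring R] (x y : R) (h : Commute x y) (b : ℕ) :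
    dk (x + y) (x * y) b = x ^ b + y ^ b := by
  induction b using Nat.twoStepInduction with
  | zero => simp [dk]; norm_num
  | one => simp [dk]
  | more n ih0 ih1 =>
    simp only [dk, ih0, ih1]
    have hyx : y * x ^ (n + 1) = x * y * x ^ n := by rw [pow_succ', ← mul_assoc, ← h.eq]
    have hxy : x * y ^ (n + 1) = x * y * y ^ n := by rw [pow_succ', mul_assoc]
    rw [add_mul, mul_add, mul_add, mul_add, hyx, hxy, ← pow_succ', ← pow_succ']
    abel

theorem sq_eq_fin_two {R : Type*} [CommRing R] (M : Matrix (Fin 2) (Fin 2) R) :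
    M * M = M.trace • M - M.det • (1 : Matrix (Fin 2) (Fin 2) R) := by
  ext i j
  fin_cases i <;> fin_cases j <;>
    simp [Matrix.mul_apply, Fin.sum_univ_two, Matrix.trace_fin_two, Matrix.det_fin_two] <;> ring

theorem trace_pow_eq_dk {R : Type*} [CommRing R] (M : Matrix (Fin 2) (Fin 2) R) (b : ℕ) :
    (M ^ b).trace = dk M.trace M.det b := by
  induction b using Nat.twoStepInduction with
  | zero => simp [dk]
  | one => simp [dk]
  | more n ih0 ih1 =>
    have : M ^ (n + 2) = M.trace • M ^ (n + 1) - M.det • M ^ n := by
      rw [pow_add, pow_two, sq_eq_fin_two, mul_sub, mul_smul_comm, mul_smul_comm, mul_one,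
        ← pow_succ]
    rw [this, Matrix.trace_sub, Matrix.trace_smul, Matrix.trace_smul, ih0, ih1]
    simp only [dk, smul_eq_mul]

theorem trace_pow_of_charpoly {R V : Type*} [CommRing R] [AddCommGroup V] [Module R V]
    [Module.Free R V] [Module.Finite R V] (hV : Module.finrank R V = 2) (f : Module.End R V)
    (s d : R) (h : f.charpoly = X ^ 2 - C s * X + C d) (b : ℕ) :
    LinearMap.trace R V (f ^ b) = dk s d b := by
  rcases subsingleton_or_nontrivial R with hR | hR
  · exact Subsingleton.elim _ _
  let B := Module.finBasisOfFinrankEq R V hV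
  set M := LinearMap.toMatrix B B f with hM
  have h1 : M.charpoly = X ^ 2 - C s * X + C d := by rw [hM, LinearMap.charpoly_toMatrix, h]
  rw [Matrix.charpoly_fin_two] at h1
  have hs : M.trace = s := by
    have := congrArg (fun p => p.coeff 1) h1
    simpa [coeff_X, coeff_C, coeff_X_pow] using this
  have hd : M.det = d := by
    have := congrArg (fun p => p.coeff 0) h1
    simpa [coeff_X, coeff_C, coeff_X_pow] using this
  rw [LinearMap.trace_eq_matrix_trace R B, ← LinearMap.toMatrix_pow, ← hM, trace_pow_eq_dk, hs, hd]

/-- the trace of an endomorphism with image in `I • V` lies in `I` -/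
theorem trace_mem_of_forall_mem {R V : Type*} [CommRing R] [AddCommGroup V] [Module R V]
    [Module.Free R V] [Module.Finite R V] (I : Ideal R) (f : Module.End R V)
    (h : ∀ v, f v ∈ I • (⊤ : Submodule R V)) : LinearMap.trace R V f ∈ I := by
  classical
  let B := Module.Free.chooseBasis R V
  have key : ∀ v ∈ I • (⊤ : Submodule R V), ∀ i, B.repr v i ∈ I := by
    intro v hv
    induction hv using Submodule.smul_induction_on' with
    | smul r hr n _ =>
      intro i
      rw [map_smul, Finsupp.smul_apply, smul_eq_mul]
      exact I.mul_mem_right _ hr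
    | add x _ y _ hx hy =>
      intro i
      rw [map_add, Finsupp.add_apply]
      exact I.add_mem (hx i) (hy i)
  rw [LinearMap.trace_eq_matrix_trace R B, Matrix.trace]
  refine I.sum_mem fun i _ => ?_
  rw [Matrix.diag_apply, LinearMap.toMatrix_apply]
  exact key _ (h _) i

end Fermat.Agent.S31
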