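import Fermat.Agent.S31.Trace
import Fermat.Agent.S31.Dickson
import Fermat.Agent.S31.Cyclo
import Fermat.Prelude.Def_CuspForm_HeckeGaloisRepDatum

/-!
# S31 : unramifiedness from the Eichler–Shimura interface (pure algebra)

`ESInterface N S p` : for every `n` there is an abelian group `W` killed by `p ^ m`, with an action of
`G_ℚ` of finite level and an action `a` of the Hecke algebra such that
(ES0) the two actions commute, `W` is finite, `n ≤ m`,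
(ES1) `τ² - a(T_ℓ) τ + ℓ = 0` for every Frobenius lift `τ` at `ℓ ∉ S`,
(ES2) inertia at `q ∤ N p` acts trivially,
(ES3) `a x = 0 → x ∈ p ^ n 𝕋`.
The same interface gives S29 (`k ⊗_𝕋 W ≠ 0` by Nakayama) and S30 (pseudo-representations).
-/

set_option autoImplicit false

open Polynomial

namespace Fermat.Agent.S31

open Fermat.Agent.S29 (Qb GQ)

/-- the Eichler–Shimura interface -/
def ESInterface (N : ℕ) [NeZero N] (S : Set ℕ) (p : ℕ) : Prop :=
  ∀ n : ℕ, ∃ (m : ℕ) (W : Type) (_ : AddCommGroup W) (act : GQ →* AddMonoid.End W)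
    (a : CuspForm.heckeAlgebra N 2 S →+* AddMonoid.End W),
    n ≤ m ∧ Finite W ∧
    (∀ w : W, (p ^ m) • w = 0) ∧
    (∃ L : IntermediateField ℚ Qb, FiniteDimensional ℚ L ∧
      ∀ σ : GQ, (∀ x ∈ L, σ x = x) → act σ = 1) ∧
    (∀ (x : CuspForm.heckeAlgebra N 2 S) (g : GQ), Commute (a x) (act g)) ∧
    (∀ (ℓ : ℕ) (hℓ : ℓ.Prime) (hℓN : ¬ ℓ ∣ N) (hℓS : ℓ ∉ S) (A : ValuationSubring Qb),
      A.LiesOverPrime ℓ → ∀ τ : GQ, A.IsFrobeniusAt τ ℓ →
        act τ * act τ - a (CuspForm.heckeAlgebra.T hℓ hℓN hℓS) * act τ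
          + (ℓ : AddMonoid.End W) = 0) ∧
    (∀ q : ℕ, q.Prime → ¬ q ∣ N → q ≠ p → ∀ A : ValuationSubring Qb, A.LiesOverPrime q →
      ∀ σ ∈ A.inertiaSubgroupIn ℚ, act σ = 1) ∧
    (∀ x : CuspForm.heckeAlgebra N 2 S, a x = 0 → ∃ y, x = (p ^ n : ℕ) • y)

/-- a monoid hom of finite level only depends on the restriction to the level field -/
theorem eq_of_level {M : Type*} [Monoid M] (f : GQ →* M) (L : IntermediateField ℚ Qb)
    (hL : ∀ σ : GQ, (∀ x ∈ L, σ x = x) → f σ = 1) (g h : GQ) (hgh : ∀ x ∈ L, g x = h x) :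
    f g = f h := by
  have h1 : f (g⁻¹ * h) = 1 := hL _ (fun x hx => by
    rw [AlgEquiv.mul_apply, ← hgh x hx]
    exact AlgEquiv.symm_apply_apply g x)
  calc f g = f g * f (g⁻¹ * h) := by rw [h1, mul_one]
    _ = f h := by rw [← map_mul, mul_inv_cancel_left]

/-- natural numbers congruent modulo `M` act in the same way on a group killed by `M` -/
theorem natCast_end_eq {W : Type*} [AddCommGroup W] (M : ℕ) (hW : ∀ w : W, M • w = 0) (c d : ℕ)
    (h : (c : ZMod M) = (d : ZMod M)) : (c : AddMonoid.End W) = (d : AddMonoid.End W) := by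
  have key : ∀ (e : ℕ) (w : W), e • w = (e % M) • w := by
    intro e w
    conv_lhs => rw [← Nat.mod_add_div e M]
    rw [add_smul, mul_comm, mul_smul, hW, smul_zero, add_zero]
  have h2 : c % M = d % M := (ZMod.natCast_eq_natCast_iff c d M).mp h
  ext w
  rw [AddMonoid.End.natCast_apply, AddMonoid.End.natCast_apply, key c, key d, h2]

/-- `a (dk T ℓ b) = τ ^ b + ℓ ^ b τ ^ (-b)` -/
theorem map_dk_of_quad {R E : Type*} [Ring R] [Ring E] (a : R →+* E) (t : R) (ℓ : ℕ) (x x' : E)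
    (hx : x * x' = 1) (hx' : x' * x = 1) (h : x * x - a t * x + (ℓ : E) = 0) (b : ℕ) :
    a (dk t (ℓ : R) b) = x ^ b + (ℓ ^ b : ℕ) * x' ^ b := by
  have h1 : a t = x + (ℓ : E) * x' := by
    have h2 : (x * x - a t * x + (ℓ : E)) * x' = 0 := by rw [h, zero_mul]
    rw [add_mul, sub_mul, mul_assoc, mul_assoc, hx, mul_one, mul_one] at h2
    have h4 : x + (ℓ : E) * x' - a t = 0 := by rw [← h2]; abel
    exact (sub_eq_zero.mp h4).symm
  have hc : Commute x ((ℓ : E) * x') := by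
    have : Commute x x' := by rw [Commute, SemiconjBy, hx, hx']
    exact (Nat.cast_commute ℓ x).symm.mul_right this
  have h3 : x * ((ℓ : E) * x') = (ℓ : E) := by
    rw [← mul_assoc, ← (Nat.cast_commute ℓ x).eq, mul_assoc, hx, mul_one]
  have h5 : dk (a t) (ℓ : E) b = dk (x + (ℓ : E) * x') (x * ((ℓ : E) * x')) b := by
    rw [h1, h3]
  rw [map_dk, map_natCast, h5, dk_add_mul _ _ hc, (Nat.cast_commute ℓ x').mul_pow, Nat.cast_pow]

/-- traces of elements that agree on the level field are congruent -/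
theorem trace_sub_mem {A : Type} [CommRing A] [IsLocalRing A] (ρ : GaloisRepAdic A) (n : ℕ)
    (L : IntermediateField ℚ Qb)
    (hL : ∀ σ : GQ, (∀ x ∈ L, σ x = x) →
      ∀ v : ρ.V, ρ.ρ σ v - v ∈ (IsLocalRing.maximalIdeal A ^ n) • (⊤ : Submodule A ρ.V))
    (g h : GQ) (hgh : ∀ x ∈ L, g x = h x) :
    ρ.trace g - ρ.trace h ∈ IsLocalRing.maximalIdeal A ^ n := by
  unfold GaloisRepAdic.trace
  rw [← map_sub]
  apply trace_mem_of_forall_mem
  intro v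
  have h1 : ∀ x ∈ L, (h⁻¹ * g) x = x := fun x hx => by
    rw [AlgEquiv.mul_apply, hgh x hx]
    exact AlgEquiv.symm_apply_apply h x
  have h2 := hL _ h1 v
  have h3 : (ρ.ρ g - ρ.ρ h) v = ρ.ρ h (ρ.ρ (h⁻¹ * g) v - v) := by
    rw [map_sub, ← Module.End.mul_apply, ← map_mul, mul_inv_cancel_left, LinearMap.sub_apply]
  rw [h3]
  have h4 : ((IsLocalRing.maximalIdeal A ^ n) • (⊤ : Submodule A ρ.V)).map (ρ.ρ h) ≤
      (IsLocalRing.maximalIdeal A ^ n) • (⊤ : Submodule A ρ.V) := by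
    rw [Submodule.map_smul'']
    exact Submodule.smul_mono le_rfl le_top
  exact h4 (Submodule.mem_map_of_mem h2)

section

variable {p : ℕ} {N : ℕ} [NeZero N] {S : Finset ℕ}
  {𝒪 : Type} [CommRing 𝒪] [IsDomain 𝒪] [IsDiscreteValuationRing 𝒪]
  [IsAdicComplete (IsLocalRing.maximalIdeal 𝒪) 𝒪]
  {θ : CuspForm.heckeAlgebra N 2 (↑S : Set ℕ) →+* IsLocalRing.ResidueField 𝒪}
  {T : Type} [CommRing T] [IsLocalRing T] [IsNoetherianRing T]
  [IsAdicComplete (IsLocalRing.maximalIdeal T) T] [Algebra 𝒪 T] [IsLocalHom (algebraMap 𝒪 T)]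
  [Module.Finite 𝒪 T] [Module.Free 𝒪 T]

/-- trace of a power of a Frobenius lift -/
theorem trace_frob_pow (H : CuspForm.HeckeGaloisRepDatum N (↑S : Set ℕ) 𝒪 θ T)
    {ℓ : ℕ} (hℓ : ℓ.Prime) (hℓN : ¬ ℓ ∣ N) (hℓS : ℓ ∉ (↑S : Set ℕ)) (A : ValuationSubring Qb)
    (hA : A.LiesOverPrime ℓ) (τ : GQ) (hτ : A.IsFrobeniusAt τ ℓ) (b : ℕ) :
    H.ρ.trace (τ ^ b) = H.π (dk (CuspForm.heckeAlgebra.T hℓ hℓN hℓS) (ℓ : _) b) := by
  unfold GaloisRepAdic.trace
  rw [map_pow, trace_pow_of_charpoly H.ρ.finrank_eq _ _ _ (H.charpoly_frob ℓ hℓ hℓN hℓS A hA τ hτ),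
    map_dk, map_natCast]

/-- Frobenius density in the form used here -/
theorem exists_frob (S : Finset ℕ) (L : IntermediateField ℚ Qb) (hL : FiniteDimensional ℚ L)
    (g : GQ) :
    ∃ (ℓ : ℕ) (A : ValuationSubring Qb) (τ : GQ) (b : ℕ),
      ℓ.Prime ∧ ℓ ∉ S ∧ A.LiesOverPrime ℓ ∧ A.IsFrobeniusAt τ ℓ ∧ ∀ x ∈ L, g x = (τ ^ b) x := by
  obtain ⟨ℓ, A, τ, b, h1, h2, h3, h4, h5⟩ := Fermat.Agent.S29.exists_frobenius_pow L hL
    (∏ s ∈ S.erase 0, s) (Finset.prod_ne_zero_iff.mpr fun s hs => Finset.ne_of_mem_erase hs) g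
  exact ⟨ℓ, A, τ, b, h1, fun hS => h2 (Finset.dvd_prod_of_mem _
    (Finset.mem_erase.mpr ⟨h1.ne_zero, hS⟩)), h3, h4, h5⟩

theorem trace_inertia_mul_sub_mem (hp : p.Prime)
    (hp𝒪 : (p : 𝒪) ∈ IsLocalRing.maximalIdeal 𝒪) (hpS : p ∈ S)
    (hNS : ∀ q : ℕ, q.Prime → q ∣ N → q ∈ S)
    (hES : ESInterface N (↑S : Set ℕ) p)
    (H : CuspForm.HeckeGaloisRepDatum N (↑S : Set ℕ) 𝒪 θ T)
    (q : ℕ) (hq : q.Prime) (hqS : q ∉ S) (P : ValuationSubring Qb) (hP : P.LiesOverPrime q)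
    (σ : GQ) (hσ : σ ∈ P.inertiaSubgroupIn ℚ) (g : GQ) (n : ℕ) :
    H.ρ.trace (σ * g) - H.ρ.trace g ∈ IsLocalRing.maximalIdeal T ^ n := by
  obtain ⟨m, W, _, act, a, -, -, hkill, ⟨L', hL'fin, hL'⟩, -, ES1, ES2, ES3⟩ := hES n
  obtain ⟨Ln, hLnfin, hLn⟩ := H.ρ.isAdicContinuous n
  obtain ⟨χ, ⟨Lχ, hLχfin, hLχ⟩, hχfrob, hχin⟩ := exists_cyclo_pow hp m
  have hqp : q ≠ p := fun h => hqS (h ▸ hpS)
  set L : IntermediateField ℚ Qb := Ln ⊔ L' ⊔ Lχ with hLdef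
  have hLfin : FiniteDimensional ℚ L := by
    have : FiniteDimensional ℚ (Ln ⊔ L' : IntermediateField ℚ Qb) :=
      IntermediateField.finiteDimensional_sup Ln L'
    exact IntermediateField.finiteDimensional_sup (Ln ⊔ L') Lχ
  have hLn_le : Ln ≤ L := le_sup_left.trans le_sup_left
  have hL'_le : L' ≤ L := le_sup_right.trans le_sup_left
  have hLχ_le : Lχ ≤ L := le_sup_right
  -- the general computation for one element
  have main : ∀ h : GQ, ∃ (z : CuspForm.heckeAlgebra N 2 (↑S : Set ℕ)) (c : ℕ),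
      H.ρ.trace h - H.π z ∈ IsLocalRing.maximalIdeal T ^ n ∧
      a z = act h + (c : AddMonoid.End W) * act h⁻¹ ∧
      ((χ h : (ZMod (p ^ m))ˣ) : ZMod (p ^ m)) = (c : ZMod (p ^ m)) := by
    intro h
    obtain ⟨ℓ, A, τ, b, hℓ, hℓS, hA, hτ, hb⟩ := exists_frob S L hLfin h
    have hℓN : ¬ ℓ ∣ N := fun hd => hℓS (hNS ℓ hℓ hd)
    have hℓS' : ℓ ∉ (↑S : Set ℕ) := fun hh => hℓS (Finset.mem_coe.mp hh)
    have hℓp : ℓ ≠ p := fun hh => hℓS (hh ▸ hpS)
    refine ⟨dk (CuspForm.heckeAlgebra.T hℓ hℓN hℓS') (ℓ : _) b, ℓ ^ b, ?_, ?_, ?_⟩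
    · rw [← trace_frob_pow H hℓ hℓN hℓS' A hA τ hτ b]
      exact trace_sub_mem H.ρ n Ln hLn h (τ ^ b) (fun x hx => hb x (hLn_le hx))
    · have e1 : act h = act τ ^ b := by
        rw [← map_pow]
        exact eq_of_level act L' hL' h (τ ^ b) (fun x hx => hb x (hL'_le hx))
      have e2 : act h⁻¹ = act τ⁻¹ ^ b := by
        have e3 : act h * act h⁻¹ = 1 := by rw [← map_mul, mul_inv_cancel, map_one]
        have e4 : act τ⁻¹ ^ b * act τ ^ b = 1 := by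
          rw [← map_pow, ← map_pow, ← map_mul, inv_pow, inv_mul_cancel, map_one]
        calc act h⁻¹ = (act τ⁻¹ ^ b * act τ ^ b) * act h⁻¹ := by rw [e4, one_mul]
          _ = act τ⁻¹ ^ b := by rw [← e1, mul_assoc, e3, mul_one]
      rw [e1, e2]
      exact map_dk_of_quad a _ ℓ (act τ) (act τ⁻¹)
        (by rw [← map_mul, mul_inv_cancel, map_one]) (by rw [← map_mul, inv_mul_cancel, map_one])
        (ES1 ℓ hℓ hℓN hℓS' A hA τ hτ) b
    · have e1 : χ h = χ τ ^ b := by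
        rw [← map_pow]
        exact eq_of_level χ Lχ hLχ h (τ ^ b) (fun x hx => hb x (hLχ_le hx))
      rw [e1, Units.val_pow_eq_pow_val, hχfrob ℓ hℓ hℓp A hA τ hτ, Nat.cast_pow]
  obtain ⟨z, c, hz1, hz2, hz3⟩ := main g
  obtain ⟨z', c', hz1', hz2', hz3'⟩ := main (σ * g)
  have hqN : ¬ q ∣ N := fun hd => hqS (hNS q hq hd)
  have hσ1 : act σ = 1 := ES2 q hq hqN hqp P hP σ hσ
  have hσ2 : act σ⁻¹ = 1 := ES2 q hq hqN hqp P hP σ⁻¹ (inv_mem hσ)
  have hχσ : χ σ = 1 := hχin q hq hqp P hP σ hσ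
  have hcc : (c' : AddMonoid.End W) = (c : AddMonoid.End W) := by
    apply natCast_end_eq (p ^ m) hkill
    rw [← hz3, ← hz3', map_mul, hχσ, one_mul]
  have hzz : a (z' - z) = 0 := by
    rw [map_sub, hz2, hz2', mul_inv_rev, map_mul, map_mul, hσ1, hσ2, one_mul, mul_one, hcc, sub_self]
  obtain ⟨y, hy⟩ := ES3 _ hzz
  have hpT : (p : T) ∈ IsLocalRing.maximalIdeal T := by
    have h1 : algebraMap 𝒪 T (p : 𝒪) ∈ IsLocalRing.maximalIdeal T :=
      map_nonunit (algebraMap 𝒪 T) _ hp𝒪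
    rwa [map_natCast] at h1
  have hπ : H.π z' - H.π z ∈ IsLocalRing.maximalIdeal T ^ n := by
    rw [← map_sub, hy, map_nsmul, nsmul_eq_mul, Nat.cast_pow]
    exact Ideal.mul_mem_right _ _ (Ideal.pow_mem_pow hpT n)
  have : H.ρ.trace (σ * g) - H.ρ.trace g =
      (H.ρ.trace (σ * g) - H.π z') - (H.ρ.trace g - H.π z) + (H.π z' - H.π z) := by ring
  rw [this]
  exact Ideal.add_mem _ (Ideal.sub_mem _ hz1' hz1) hπ

/-- **S31 from the Eichler–Shimura interface** -/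
theorem isUnramifiedAt_of_ES (hp : p.Prime)
    (hp𝒪 : (p : 𝒪) ∈ IsLocalRing.maximalIdeal 𝒪) (hpS : p ∈ S)
    (hNS : ∀ q : ℕ, q.Prime → q ∣ N → q ∈ S)
    (hES : ESInterface N (↑S : Set ℕ) p)
    (H : CuspForm.HeckeGaloisRepDatum N (↑S : Set ℕ) 𝒪 θ T)
    (q : ℕ) (hq : q.Prime) (hqS : q ∉ S) :
    H.ρ.IsUnramifiedAt q := by
  intro P hP σ hσ
  apply eq_one_of_trace H.ρ H.residual_absIrr σ
  intro g
  rw [← sub_eq_zero]
  have hH : IsHausdorff (IsLocalRing.maximalIdeal T) T := inferInstance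
  apply hH.haus
  intro n
  rw [SModEq.zero, smul_eq_mul, Ideal.mul_top]
  exact trace_inertia_mul_sub_mem hp hp𝒪 hpS hNS hES H q hq hqS P hP σ hσ g n

end

end Fermat.Agent.S31
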