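import Mathlib

/-!
# S31/SAT : saturation of a ring of endomorphisms of a lattice

`X` a lattice, `κ : R → End_ℤ X` injective.  There is `c` such that `κ x ∈ p ^ (n + c) End X` implies
`x ∈ p ^ n R`.
-/

set_option autoImplicit false

namespace Fermat.Agent.S31

/-- bounded torsion of `E / R'` for a submodule `R'` of a noetherian `ℤ`-module -/
theorem exists_bound_torsion {E : Type*} [AddCommGroup E] [IsNoetherian ℤ E] (R' : Submodule ℤ E) :
    ∃ e : ℕ, 0 < e ∧ ∀ (y : E) (k : ℕ), 0 < k → k • y ∈ R' → e • y ∈ R' := by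
  classical
  let Sat : Submodule ℤ E :=
    { carrier := {y | ∃ k : ℕ, 0 < k ∧ k • y ∈ R'}
      zero_mem' := ⟨1, one_pos, by simp⟩
      add_mem' := by
        rintro a b ⟨k, hk, ha⟩ ⟨l, hl, hb⟩
        refine ⟨k * l, Nat.mul_pos hk hl, ?_⟩
        rw [smul_add]
        refine R'.add_mem ?_ ?_
        · rw [mul_comm, mul_smul]; exact R'.smul_of_tower_mem l ha
        · rw [mul_smul]; exact R'.smul_of_tower_mem k hb
      smul_mem' := by
        rintro c a ⟨k, hk, ha⟩
        refine ⟨k, hk, ?_⟩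
        rw [smul_comm]
        exact R'.smul_mem c ha }
  obtain ⟨s, hs⟩ : Sat.FG := IsNoetherian.noetherian Sat
  have hmem : ∀ y ∈ s, ∃ k : ℕ, 0 < k ∧ k • y ∈ R' := by
    intro y hy
    have : y ∈ Sat := hs ▸ Submodule.subset_span hy
    exact this
  choose! k hk0 hk using hmem
  refine ⟨∏ y ∈ s, k y, Finset.prod_pos hk0, ?_⟩
  intro y l hl hy
  have hySat : y ∈ Sat := ⟨l, hl, hy⟩
  rw [← hs] at hySat
  clear hy
  induction hySat using Submodule.span_induction with
  | mem x hx =>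
    rw [← Finset.mul_prod_erase s k hx, mul_comm, mul_smul]
    exact R'.smul_of_tower_mem _ (hk x hx)
  | zero => simp
  | add a b _ _ ha hb => rw [smul_add]; exact R'.add_mem ha hb
  | smul c a _ ha => rw [smul_comm]; exact R'.smul_mem c ha

theorem exists_saturation {X R : Type*} [AddCommGroup X] [Module.Free ℤ X] [Module.Finite ℤ X]
    [Ring R] (κ : R →+* Module.End ℤ X) (hκ : Function.Injective κ) (p : ℕ) (hp : p.Prime) :
    ∃ c : ℕ, ∀ (n : ℕ) (x : R), (∀ v : X, ∃ v' : X, κ x v = (p ^ (n + c)) • v') →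
      ∃ y : R, x = (p ^ n : ℕ) • y := by
  classical
  let R' : Submodule ℤ (Module.End ℤ X) := LinearMap.range κ.toAddMonoidHom.toIntLinearMap
  obtain ⟨e, he, hE⟩ := exists_bound_torsion R'
  refine ⟨e, fun n x hx => ?_⟩
  choose f hf using hx
  let b := Module.Free.chooseBasis ℤ X
  let y : Module.End ℤ X := b.constr ℤ (fun i => f (b i))
  have hy : (p ^ (n + e)) • y = κ x := by
    apply b.ext
    intro i
    rw [LinearMap.smul_apply, Module.Basis.constr_basis, hf]
  have hxR : κ x ∈ R' := ⟨x, rfl⟩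
  have h1 : e • y ∈ R' := hE y (p ^ (n + e)) (pow_pos hp.pos _) (hy ▸ hxR)
  -- the gcd
  obtain ⟨j, hj, hgcd⟩ := (Nat.dvd_prime_pow hp).mp (Nat.gcd_dvd_left (p ^ (n + e)) e)
  have hje : j ≤ e := by
    by_contra hlt
    rw [not_le] at hlt
    have h2 : p ^ j ∣ e := hgcd ▸ Nat.gcd_dvd_right _ _
    have h3 : p ^ j ≤ e := Nat.le_of_dvd he h2
    have h4 : e < p ^ e := Nat.lt_pow_self hp.one_lt
    have h5 : p ^ e ≤ p ^ j := Nat.pow_le_pow_right hp.pos hlt.le
    omega
  have h2 : (p ^ j) • y ∈ R' := by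
    have hb := Nat.gcd_eq_gcd_ab (p ^ (n + e)) e
    rw [hgcd] at hb
    have h3 : ((p ^ j : ℕ) : ℤ) • y =
        (Nat.gcdA (p ^ (n + e)) e) • ((p ^ (n + e)) • y) + (Nat.gcdB (p ^ (n + e)) e) • (e • y) := by
      rw [hb, add_smul, mul_comm, mul_smul, mul_comm, mul_smul, natCast_zsmul, natCast_zsmul]
    rw [← natCast_zsmul, h3]
    exact R'.add_mem (R'.smul_mem _ (hy ▸ hxR)) (R'.smul_mem _ h1)
  have h3 : (p ^ e) • y ∈ R' := by
    obtain ⟨d, rfl⟩ := Nat.exists_eq_add_of_le hje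
    rw [pow_add, mul_comm, mul_smul]
    exact R'.smul_of_tower_mem _ h2
  obtain ⟨x', hx'⟩ := h3
  refine ⟨x', hκ ?_⟩
  have hx'' : κ x' = (p ^ e) • y := hx'
  rw [map_nsmul, hx'', ← hy, pow_add, mul_smul]

end Fermat.Agent.S31
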