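import Fermat.Agent.S31.Main
import Fermat.Agent.S31.Sat
import Fermat.Agent.Lib.Frobenius

/-!
# S31/RAW : from raw Kummer data to the Eichler–Shimura interface (pure algebra)

Raw data at level `p ^ m` (same shape as `Fermat.Agent.S29.exists_ES_module`): an abelian group `𝒲`
killed by `p ^ m` with an action of `G_ℚ`, a lattice `X` with a faithful action `κ` of the Hecke
algebra, `Θ : X → 𝒲` additive with kernel `p ^ m X`, every `Θ c` has an open stabiliser, and on the
Galois conjugates of the `Θ c`: `T_ℓ = σ + ℓ σ⁻¹` for Frobenius lifts, inertia acts trivially.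

`W` := the subgroup generated by the `g (Θ c)`; `a t` := the unique endomorphism with
`a t (g (Θ c)) = g (Θ (κ t c))`.
-/

set_option autoImplicit false

namespace Fermat.Agent.S31

open Fermat.Agent.S29 (Qb GQ)

section Gen

variable {𝒲 X : Type} [AddCommGroup 𝒲] [AddCommGroup X]
  (act : GQ →* AddMonoid.End 𝒲) (Θ : X →+ 𝒲)

/-- the subgroup generated by the Galois conjugates of the `Θ c` -/
def W1 : AddSubgroup 𝒲 := AddSubgroup.closure {w | ∃ (g : GQ) (c : X), w = act g (Θ c)}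

theorem gen_mem_W1 (g : GQ) (c : X) : act g (Θ c) ∈ W1 act Θ :=
  AddSubgroup.subset_closure ⟨g, c, rfl⟩

/-- an endomorphism mapping generators to `W1` preserves `W1` -/
theorem map_mem_W1 (E : AddMonoid.End 𝒲) (h : ∀ g c, E (act g (Θ c)) ∈ W1 act Θ) {w : 𝒲}
    (hw : w ∈ W1 act Θ) : E w ∈ W1 act Θ := by
  induction hw using AddSubgroup.closure_induction with
  | mem x hx => obtain ⟨g, c, rfl⟩ := hx; exact h g c
  | zero => rw [map_zero]; exact zero_mem _
  | add x y _ _ hx hy => rw [map_add]; exact add_mem hx hy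
  | neg x _ hx => rw [map_neg]; exact neg_mem hx

/-- two additive maps that agree on the generators agree on `W1` -/
theorem eq_on_W1 (E E' : AddMonoid.End 𝒲)
    (h : ∀ g c, E (act g (Θ c)) = E' (act g (Θ c))) {w : 𝒲}
    (hw : w ∈ W1 act Θ) : E w = E' w := by
  induction hw using AddSubgroup.closure_induction with
  | mem x hx => obtain ⟨g, c, rfl⟩ := hx; exact h g c
  | zero => rw [map_zero, map_zero]
  | add x y _ _ hx hy => rw [map_add, map_add, hx, hy]
  | neg x _ hx => rw [map_neg, map_neg, hx]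

/-- restriction of an endomorphism to `W1` -/
def resW1 (E : AddMonoid.End 𝒲) (h : ∀ g c, E (act g (Θ c)) ∈ W1 act Θ) :
    AddMonoid.End (W1 act Θ) :=
  AddMonoidHom.codRestrict ((show 𝒲 →+ 𝒲 from E).comp (W1 act Θ).subtype) (W1 act Θ)
    (fun w => map_mem_W1 act Θ E h w.2)

@[simp] theorem coe_resW1 (E : AddMonoid.End 𝒲) (h : ∀ g c, E (act g (Θ c)) ∈ W1 act Θ)
    (w : W1 act Θ) : ((resW1 act Θ E h w : W1 act Θ) : 𝒲) = E (w : 𝒲) := rfl

theorem act_gen_mem (σ g : GQ) (c : X) : act σ (act g (Θ c)) ∈ W1 act Θ := by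
  have : act σ (act g (Θ c)) = act (σ * g) (Θ c) := by rw [map_mul]; rfl
  rw [this]
  exact gen_mem_W1 act Θ _ c

/-- the Galois action on `W1` -/
noncomputable def act1 : GQ →* AddMonoid.End (W1 act Θ) where
  toFun σ := resW1 act Θ (act σ) (act_gen_mem act Θ σ)
  map_one' := by
    ext w
    rw [coe_resW1, map_one]; rfl
  map_mul' σ τ := by
    ext w
    rw [coe_resW1, map_mul]; rfl

@[simp] theorem coe_act1 (σ : GQ) (w : W1 act Θ) :
    ((act1 act Θ σ w : W1 act Θ) : 𝒲) = act σ (w : 𝒲) := rfl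

theorem end_add_apply {M : Type*} [AddCommGroup M] (E E' : AddMonoid.End M) (x : M) :
    (E + E') x = E x + E' x := rfl

theorem end_mul_apply {M : Type*} [AddCommGroup M] (E E' : AddMonoid.End M) (x : M) :
    (E * E') x = E (E' x) := rfl

theorem end_sub_apply {M : Type*} [AddCommGroup M] (E E' : AddMonoid.End M) (x : M) :
    (E - E') x = E x - E' x := rfl

theorem end_one_apply {M : Type*} [AddCommGroup M] (x : M) : (1 : AddMonoid.End M) x = x := rfl

theorem end_zero_apply {M : Type*} [AddCommGroup M] (x : M) : (0 : AddMonoid.End M) x = 0 := rfl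

theorem end_intCast_apply {M : Type*} [AddCommGroup M] (r : ℤ) (x : M) :
    (r : AddMonoid.End M) x = r • x := rfl

/-- `t` has a lift to an endomorphism of `𝒲` compatible with the generators -/
def HasLift {R : Type*} [Ring R] (κ : R →+* Module.End ℤ X) (t : R) : Prop :=
  ∃ E : AddMonoid.End 𝒲, ∀ (g : GQ) (c : X), E (act g (Θ c)) = act g (Θ (κ t c))

section Hecke

variable {R : Type*} [Ring R] (κ : R →+* Module.End ℤ X)

theorem HasLift.add {t s : R} (ht : HasLift act Θ κ t) (hs : HasLift act Θ κ s) :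
    HasLift act Θ κ (t + s) := by
  obtain ⟨E, hE⟩ := ht
  obtain ⟨E', hE'⟩ := hs
  refine ⟨E + E', fun g c => ?_⟩
  rw [end_add_apply, hE, hE', map_add, LinearMap.add_apply, map_add, map_add]

theorem HasLift.mul {t s : R} (ht : HasLift act Θ κ t) (hs : HasLift act Θ κ s) :
    HasLift act Θ κ (t * s) := by
  obtain ⟨E, hE⟩ := ht
  obtain ⟨E', hE'⟩ := hs
  refine ⟨E * E', fun g c => ?_⟩
  rw [end_mul_apply, hE', hE, map_mul, Module.End.mul_apply]

theorem HasLift.intCast (r : ℤ) : HasLift act Θ κ (r : R) := by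
  refine ⟨(r : AddMonoid.End 𝒲), fun g c => ?_⟩
  rw [map_intCast, end_intCast_apply, Module.End.intCast_apply, map_zsmul, map_zsmul]

variable (hall : ∀ t, HasLift act Θ κ t)

/-- a chosen lift -/
noncomputable def lft (t : R) : AddMonoid.End 𝒲 := Classical.choose (hall t)

theorem lft_spec (t : R) (g : GQ) (c : X) :
    lft act Θ κ hall t (act g (Θ c)) = act g (Θ (κ t c)) := Classical.choose_spec (hall t) g c

/-- the Hecke action on `W1` -/
noncomputable def a1 : R →+* AddMonoid.End (W1 act Θ) where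
  toFun t := resW1 act Θ (lft act Θ κ hall t) (fun g c => by
    rw [lft_spec]; exact gen_mem_W1 act Θ _ _)
  map_one' := by
    ext w
    rw [coe_resW1]
    refine eq_on_W1 act Θ (lft act Θ κ hall 1) (1 : AddMonoid.End 𝒲) (fun g c => ?_) w.2
    rw [lft_spec, map_one, end_one_apply, Module.End.one_apply]
  map_mul' t s := by
    ext w
    rw [coe_resW1]
    refine eq_on_W1 act Θ (lft act Θ κ hall (t * s))
      (lft act Θ κ hall t * lft act Θ κ hall s : AddMonoid.End 𝒲) (fun g c => ?_) w.2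
    rw [lft_spec, end_mul_apply, lft_spec, lft_spec, map_mul, Module.End.mul_apply]
  map_zero' := by
    ext w
    rw [coe_resW1]
    refine eq_on_W1 act Θ (lft act Θ κ hall 0) (0 : AddMonoid.End 𝒲) (fun g c => ?_) w.2
    rw [lft_spec, map_zero, LinearMap.zero_apply, map_zero, map_zero, end_zero_apply]
  map_add' t s := by
    ext w
    rw [coe_resW1]
    refine eq_on_W1 act Θ (lft act Θ κ hall (t + s))
      (lft act Θ κ hall t + lft act Θ κ hall s : AddMonoid.End 𝒲) (fun g c => ?_) w.2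
    rw [lft_spec, end_add_apply, lft_spec, lft_spec, map_add, LinearMap.add_apply, map_add, map_add]

theorem a1_gen (t : R) (g : GQ) (c : X) :
    ((a1 act Θ κ hall t ⟨act g (Θ c), gen_mem_W1 act Θ g c⟩ : W1 act Θ) : 𝒲) =
      act g (Θ (κ t c)) :=
  lft_spec act Θ κ hall t g c

/-- an additive identity on `W1` can be checked on generators -/
theorem end_ext_W1 (E E' : AddMonoid.End (W1 act Θ))
    (h : ∀ g c, E ⟨act g (Θ c), gen_mem_W1 act Θ g c⟩ = E' ⟨act g (Θ c), gen_mem_W1 act Θ g c⟩) :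
    E = E' := by
  ext ⟨w, hw⟩
  induction hw using AddSubgroup.closure_induction with
  | mem x hx => obtain ⟨g, c, rfl⟩ := hx; rw [h g c]
  | zero =>
    have : (⟨0, zero_mem _⟩ : W1 act Θ) = 0 := rfl
    rw [this, map_zero, map_zero]
  | add x y hx' hy' hx hy =>
    have : (⟨x + y, add_mem hx' hy'⟩ : W1 act Θ) = ⟨x, hx'⟩ + ⟨y, hy'⟩ := rfl
    rw [this, map_add, map_add, AddSubgroup.coe_add, AddSubgroup.coe_add, hx, hy]
  | neg x hx' hx =>
    have : (⟨-x, neg_mem hx'⟩ : W1 act Θ) = -⟨x, hx'⟩ := rfl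
    rw [this, map_neg, map_neg, AddSubgroup.coe_neg, AddSubgroup.coe_neg, hx]

theorem act1_gen (σ g : GQ) (c : X) : act1 act Θ σ ⟨act g (Θ c), gen_mem_W1 act Θ g c⟩ =
    ⟨act (σ * g) (Θ c), gen_mem_W1 act Θ (σ * g) c⟩ := by
  apply Subtype.ext
  show act σ (act g (Θ c)) = act (σ * g) (Θ c)
  rw [map_mul]; rfl

theorem a1_commute (t : R) (σ : GQ) : Commute (a1 act Θ κ hall t) (act1 act Θ σ) := by
  apply end_ext_W1
  intro g c
  apply Subtype.ext
  rw [end_mul_apply, end_mul_apply, coe_act1, a1_gen, act1_gen, a1_gen, map_mul]; rfl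

end Hecke

section Level

theorem normal_Qb : Normal ℚ Qb :=
  haveI : Algebra.IsAlgebraic ℚ Qb := AlgebraicClosure.isAlgebraic ℚ
  haveI : IsAlgClosure ℚ Qb := ⟨inferInstance, inferInstance⟩
  IsAlgClosure.normal ℚ Qb

attribute [local instance] normal_Qb

/-- a common normal level for all `Θ c` -/
theorem exists_level [Module.Finite ℤ X]
    (hlevel : ∀ c, ∃ L : IntermediateField ℚ Qb, FiniteDimensional ℚ L ∧
      ∀ g : GQ, (∀ x ∈ L, g x = x) → act g (Θ c) = Θ c) :
    ∃ L : IntermediateField ℚ Qb, FiniteDimensional ℚ L ∧ Normal ℚ L ∧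
      ∀ g : GQ, (∀ x ∈ L, g x = x) → ∀ c, act g (Θ c) = Θ c := by
  classical
  obtain ⟨s, hs⟩ := (Module.Finite.fg_top : (⊤ : Submodule ℤ X).FG)
  choose L hLfin hL using hlevel
  let L0 : IntermediateField ℚ Qb := ⨆ c ∈ s, L c
  have hL0fin : FiniteDimensional ℚ L0 :=
    IntermediateField.finiteDimensional_iSup_of_finset' (fun c _ => hLfin c)
  refine ⟨IntermediateField.normalClosure ℚ L0 Qb, inferInstance,
    normalClosure.normal ℚ L0 Qb, ?_⟩
  intro g hg c
  have hc : c ∈ Submodule.span ℤ (s : Set X) := hs ▸ Submodule.mem_top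
  induction hc using Submodule.span_induction with
  | mem x hx =>
    apply hL x g
    intro y hy
    apply hg
    apply IntermediateField.le_normalClosure L0
    exact (le_iSup₂_of_le x hx le_rfl : L x ≤ L0) hy
  | zero => rw [map_zero, map_zero]
  | add a b _ _ ha hb => rw [map_add, map_add, ha, hb]
  | smul r a _ ha => rw [map_zsmul, map_zsmul, ha]

/-- conjugates of elements fixing a normal field fix it -/
theorem conj_fixes (L : IntermediateField ℚ Qb) [Normal ℚ L] (σ g : GQ)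
    (hσ : ∀ x ∈ L, σ x = x) : ∀ x ∈ L, (g⁻¹ * σ * g) x = x := by
  intro x hx
  have h1 : g x ∈ L := by
    have := (IntermediateField.normal_iff_forall_map_le'.mp (inferInstance : Normal ℚ L)) g
    exact this ⟨x, hx, rfl⟩
  rw [AlgEquiv.mul_apply, AlgEquiv.mul_apply, hσ _ h1]
  exact AlgEquiv.symm_apply_apply g x

theorem act1_eq_one_of_fixes (L : IntermediateField ℚ Qb) [Normal ℚ L]
    (hL : ∀ g : GQ, (∀ x ∈ L, g x = x) → ∀ c, act g (Θ c) = Θ c) (σ : GQ)
    (hσ : ∀ x ∈ L, σ x = x) : act1 act Θ σ = 1 := by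
  apply end_ext_W1
  intro g c
  apply Subtype.ext
  rw [coe_act1, end_one_apply]
  show act σ (act g (Θ c)) = act g (Θ c)
  have h1 := hL _ (conj_fixes L σ g hσ) c
  have h2 : act σ (act g (Θ c)) = act g (act (g⁻¹ * σ * g) (Θ c)) := by
    rw [← end_mul_apply, ← end_mul_apply, ← map_mul, ← map_mul]
    congr 2
    group
  rw [h2, h1]

theorem finite_W1 [Module.Finite ℤ X] (M : ℕ) (hM : 0 < M) (hkill : ∀ w : 𝒲, M • w = 0)
    (L : IntermediateField ℚ Qb) [FiniteDimensional ℚ L]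
    (hL : ∀ g : GQ, (∀ x ∈ L, g x = x) → ∀ c, act g (Θ c) = Θ c) : Finite (W1 act Θ) := by
  classical
  obtain ⟨s, hs⟩ := (Module.Finite.fg_top : (⊤ : Submodule ℤ X).FG)
  let r : GQ → (L →ₐ[ℚ] Qb) := fun g => (g : Qb →ₐ[ℚ] Qb).comp L.val
  let sec : Set.range r → GQ := fun φ => φ.2.choose
  have hsec : ∀ g, r (sec ⟨r g, g, rfl⟩) = r g := fun g =>
    (⟨r g, g, rfl⟩ : Set.range r).2.choose_spec
  have hrep : ∀ g c, act g (Θ c) = act (sec ⟨r g, g, rfl⟩) (Θ c) := by
    intro g c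
    set g' := sec ⟨r g, g, rfl⟩ with hg'
    have h1 : ∀ x ∈ L, (g'⁻¹ * g) x = x := by
      intro x hx
      have h2 : g' x = g x := congrArg (fun φ : L →ₐ[ℚ] Qb => φ ⟨x, hx⟩) (hsec g)
      rw [AlgEquiv.mul_apply, ← h2]
      exact AlgEquiv.symm_apply_apply g' x
    have h3 := hL _ h1 c
    calc act g (Θ c) = act g' (act (g'⁻¹ * g) (Θ c)) := by
          rw [← end_mul_apply, ← map_mul, mul_inv_cancel_left]
      _ = act g' (Θ c) := by rw [h3]
  let gens : Set 𝒲 := Set.range (fun x : Set.range r × s => act (sec x.1) (Θ x.2))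
  have hgensfin : gens.Finite := Set.finite_range _
  have hle : W1 act Θ ≤ AddSubgroup.closure gens := by
    rw [W1, AddSubgroup.closure_le]
    rintro _ ⟨g, c, rfl⟩
    rw [hrep g c]
    have hc : c ∈ Submodule.span ℤ (s : Set X) := hs ▸ Submodule.mem_top
    induction hc using Submodule.span_induction with
    | mem x hx => exact AddSubgroup.subset_closure ⟨(⟨r g, g, rfl⟩, ⟨x, hx⟩), rfl⟩
    | zero => rw [map_zero, map_zero]; exact zero_mem _
    | add a b _ _ ha hb => rw [map_add, map_add]; exact add_mem ha hb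
    | smul k a _ ha => rw [map_zsmul, map_zsmul]; exact zsmul_mem ha k
  have hfg : AddGroup.FG (AddSubgroup.closure gens) :=
    (AddGroup.fg_iff_addSubgroup_fg _).mpr ⟨hgensfin.toFinset, by rw [hgensfin.coe_toFinset]⟩
  have htors : IsAddTorsion (AddSubgroup.closure gens) := by
    intro w
    rw [isOfFinAddOrder_iff_nsmul_eq_zero]
    exact ⟨M, hM, Subtype.ext (hkill w)⟩
  have hfin : Finite (AddSubgroup.closure gens) := AddCommGroup.finite_of_fg_isAddTorsion _ htors
  exact Finite.of_injective (AddSubgroup.inclusion hle) (AddSubgroup.inclusion_injective hle)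

end Level

end Gen

/-- **the Eichler–Shimura interface from raw Kummer data** -/
theorem esInterface_of_raw {p N : ℕ} [NeZero N] {S : Finset ℕ} (hp : p.Prime)
    (hNS : ∀ q : ℕ, q.Prime → q ∣ N → q ∈ S)
    (X : Type) [AddCommGroup X] [Module.Free ℤ X] [Module.Finite ℤ X]
    (κ : CuspForm.heckeAlgebra N 2 (↑S : Set ℕ) →+* Module.End ℤ X) (hκ : Function.Injective κ)
    (raw : ∀ m : ℕ, ∃ (𝒲 : Type) (_ : AddCommGroup 𝒲) (act : GQ →* AddMonoid.End 𝒲) (Θ : X →+ 𝒲),
      (∀ w : 𝒲, (p ^ m) • w = 0) ∧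
      (∀ c, Θ c = 0 → ∃ c', c = (p ^ m) • c') ∧
      (∀ c, ∃ L : IntermediateField ℚ Qb, FiniteDimensional ℚ L ∧
        ∀ g : GQ, (∀ x ∈ L, g x = x) → act g (Θ c) = Θ c) ∧
      (∀ (ℓ : ℕ) (hℓ : ℓ.Prime) (hℓN : ¬ ℓ ∣ N) (hℓS : ℓ ∉ (↑S : Set ℕ)) (A : ValuationSubring Qb),
        A.LiesOverPrime ℓ → ∀ σ : GQ, A.IsFrobeniusAt σ ℓ → ∀ (g : GQ) (c : X),
          act g (Θ (κ (CuspForm.heckeAlgebra.T hℓ hℓN hℓS) c)) =
            act σ (act g (Θ c)) + ℓ • act σ⁻¹ (act g (Θ c))) ∧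
      (∀ q : ℕ, q.Prime → ¬ q ∣ N → q ≠ p → ∀ A : ValuationSubring Qb, A.LiesOverPrime q →
        ∀ τ ∈ A.inertiaSubgroupIn ℚ, ∀ (g : GQ) (c : X), act τ (act g (Θ c)) = act g (Θ c))) :
    ESInterface N (↑S : Set ℕ) p := by
  obtain ⟨e, he⟩ := exists_saturation κ hκ p hp
  intro n
  obtain ⟨𝒲, _, act, Θ, hkill, hker, hlevel, hES, hI⟩ := raw (n + e)
  have hall : ∀ t, HasLift act Θ κ t := by
    rintro ⟨t, ht⟩
    induction ht using Algebra.adjoin_induction with
    | mem x hx =>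
      rcases hx with ⟨ℓ, hℓ, hℓN, hℓS, rfl⟩ | ⟨q, hqN, hq, hqS, rfl⟩
      · obtain ⟨A, hA⟩ := Fermat.Agent.Frob.exists_liesOverPrime hℓ
        obtain ⟨σ, hσ⟩ := Fermat.Agent.Frob.exists_isFrobeniusAt A hℓ hA
        refine ⟨act σ + (ℓ : AddMonoid.End 𝒲) * act σ⁻¹, fun g c => ?_⟩
        rw [end_add_apply, end_mul_apply, AddMonoid.End.natCast_apply]
        exact (hES ℓ hℓ hℓN hℓS A hA σ hσ g c).symm
      · exact absurd (Finset.mem_coe.mpr (hNS q hq hqN)) hqS
    | algebraMap r => exact HasLift.intCast act Θ κ r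
    | add x y hx hy ihx ihy => exact ihx.add act Θ κ ihy
    | mul x y hx hy ihx ihy => exact ihx.mul act Θ κ ihy
  obtain ⟨L, hLfin, hLnorm, hL⟩ := exists_level act Θ hlevel
  refine ⟨n + e, W1 act Θ, inferInstance, act1 act Θ, a1 act Θ κ hall, Nat.le_add_right _ _,
    finite_W1 act Θ (p ^ (n + e)) (pow_pos hp.pos _) hkill L hL,
    fun w => Subtype.ext (hkill w), ⟨L, hLfin, fun σ hσ => act1_eq_one_of_fixes act Θ L hL σ hσ⟩,
    fun x g => a1_commute act Θ κ hall x g, ?_, ?_, ?_⟩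
  · intro ℓ hℓ hℓN hℓS A hA τ hτ
    apply end_ext_W1
    intro g c
    apply Subtype.ext
    rw [end_add_apply, end_sub_apply, end_mul_apply, end_mul_apply, act1_gen, act1_gen,
      AddMonoid.End.natCast_apply, end_zero_apply, AddSubgroup.coe_add, AddSubgroup.coe_sub, a1_gen,
      hES ℓ hℓ hℓN hℓS A hA τ hτ (τ * g) c]
    have h1 : act τ⁻¹ (act (τ * g) (Θ c)) = act g (Θ c) := by
      rw [← end_mul_apply, ← map_mul, inv_mul_cancel_left]
    have h2 : act τ (act (τ * g) (Θ c)) = act (τ * (τ * g)) (Θ c) := by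
      rw [← end_mul_apply, ← map_mul]
    rw [h1, h2]
    simp
  · intro q hq hqN hqp A hA σ hσ
    apply end_ext_W1
    intro g c
    apply Subtype.ext
    rw [coe_act1, end_one_apply]
    exact hI q hq hqN hqp A hA σ hσ g c
  · intro x hx
    apply he n x
    intro v
    apply hker
    have h1 := a1_gen act Θ κ hall x 1 v
    rw [hx, end_zero_apply] at h1
    have h2 : act 1 (Θ (κ x v)) = Θ (κ x v) := by rw [map_one, end_one_apply]
    rw [← h2, ← h1]; rfl

end Fermat.Agent.S31
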