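import Fermat.Agent.S31.Raw
import Fermat.Agent.S31.Lat
import Fermat.Agent.S29.ESRel
import Fermat.Agent.S29.K3
import Fermat.Agent.S29.Descent
import Fermat.Agent.S18.KLAll

/-!
# S31/ES : the Eichler–Shimura interface from the ES cluster

`X = XN N`, `κ = kap` (`S31/Lat.lean`), raw data at level `p ^ m` from `S29/Wiring.lean`
(`WW N (p ^ m)`, `actW`, `Theta`), `S29/ESRel.lean` (ES1, ES2 from (KL)), `S29/K3.lean`,
`S29/Descent.lean`.
-/

set_option autoImplicit false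

namespace Fermat.Agent.S31

open Fermat.Agent.S29

theorem desc_holds (N m : ℕ) [NeZero N] (hm : m ≠ 0) : Desc N m :=
  fun c hc => exists_kummer N hm c hc

theorem k3_holds' (N m : ℕ) [NeZero N] : K3 N m :=
  fun ℓ hℓ hN _ _ _ _ hu hc => @K3.isKummer_Tl N m ℓ _ ⟨hℓ.ne_zero⟩ hℓ hN _ _ _ hu hc

/-- the interface, given (KL) at all good places -/
theorem esInterface_of_KL {p : ℕ} {N : ℕ} [NeZero N] {S : Finset ℕ} (hp : p.Prime) (hpS : p ∈ S)
    (hNS : ∀ q : ℕ, q.Prime → q ∣ N → q ∈ S) (hKL : KLAll N) : ESInterface N (↑S : Set ℕ) p := by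
  refine esInterface_of_raw hp hNS (XN N) kap kap_injective (fun m => ?_)
  have hm : p ^ m ≠ 0 := pow_ne_zero _ hp.ne_zero
  have hD := desc_holds N (p ^ m) hm
  have hnd : ∀ ℓ : ℕ, ℓ.Prime → ¬ ℓ ∣ N → ℓ ≠ p → ¬ ℓ ∣ N * p ^ m := by
    intro ℓ hℓ hN hne hd
    rcases (Nat.Prime.dvd_mul hℓ).mp hd with h | h
    · exact hN h
    · exact hne ((Nat.prime_dvd_prime_iff_eq hℓ hp).mp (hℓ.dvd_of_dvd_pow h))
  refine ⟨WW N (p ^ m), inferInstance, actW N (p ^ m), Theta hm hD, nsmul_WW,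
    fun c hc => Theta_ker hm hD c hc, fun c => Theta_level hm hD c, ?_, ?_⟩
  · intro ℓ hℓ hℓN hℓS A hA σ hσ g c
    have hℓp : ℓ ≠ p := fun h => hℓS (Finset.mem_coe.mpr (h ▸ hpS))
    rw [kap_T, ← TX_eq hℓ hℓN]
    exact Theta_ES hm hD (k3_holds' N _) (es1_of_KL N _ hKL) ℓ hℓ (hnd ℓ hℓ hℓN hℓp) A hA σ hσ g c
  · intro q hq hqN hqp A hA τ hτ g c
    exact Theta_inertia hm hD (es2_of_KL N _ hKL) q hq (hnd q hq hqN hqp) A hA τ hτ g c

/-- (KL) at all good places, from the S18 assembly -/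
theorem klAll (N : ℕ) [NeZero N] : KLAll N :=
  fun ℓ A hℓ hℓN hA => S18.klAll N ℓ A hℓ hℓN hA

theorem esInterface {p : ℕ} {N : ℕ} [NeZero N] {S : Finset ℕ} (hp : p.Prime) (hpS : p ∈ S)
    (hNS : ∀ q : ℕ, q.Prime → q ∣ N → q ∈ S) : ESInterface N (↑S : Set ℕ) p :=
  esInterface_of_KL hp hpS hNS (klAll N)

end Fermat.Agent.S31
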