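import Mathlib
import Fermat.Agent.S53.Dict

set_option autoImplicit false

namespace Fermat.Agent.S31

open Fermat.Agent.S53 (Gal M2 HasMatrix HasMatrixRes)

/-- Cayley-Hamilton for two by two matrices. -/
theorem ch_two {R : Type*} [CommRing R] (Z : Matrix (Fin 2) (Fin 2) R) :
    Z * Z = Z.trace • Z - Z.det • (1 : Matrix (Fin 2) (Fin 2) R) := by
  ext i j
  fin_cases i <;> fin_cases j <;>
    simp [Matrix.mul_apply, Fin.sum_univ_two, Matrix.trace_fin_two, Matrix.det_fin_two] <;> ring

theorem trace_lemma_algClosed {K : Type*} [Field K] [IsAlgClosed K] {G : Type*} [Group G]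
    (r : G → Matrix (Fin 2) (Fin 2) K) (h1 : r 1 = 1) (hmul : ∀ a b, r (a * b) = r a * r b)
    (hirr : ∀ W : Submodule K (Fin 2 → K), (∀ g, ∀ x ∈ W, (r g).mulVec x ∈ W) → W = ⊥ ∨ W = ⊤)
    (X : Matrix (Fin 2) (Fin 2) K) (hX : ∀ g, (X * r g).trace = 0) : X = 0 := by
  classical
  by_contra hX0
  -- a singular nonzero matrix with the same property
  obtain ⟨Z, hZ0, hZdet, hZ⟩ : ∃ Z : Matrix (Fin 2) (Fin 2) K, Z ≠ 0 ∧ Z.det = 0 ∧
      ∀ g, (Z * r g).trace = 0 := by
    by_cases hdet : X.det = 0
    · exact ⟨X, hX0, hdet, hX⟩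
    -- a non scalar element
    obtain ⟨g₀, hg₀⟩ : ∃ g₀, ∀ c : K, r g₀ ≠ c • (1 : Matrix (Fin 2) (Fin 2) K) := by
      by_contra hcon
      push Not at hcon
      choose c hc using hcon
      let v : Fin 2 → K := ![1, 0]
      have hv : v ≠ 0 := by
        intro h
        have := congrFun h 0
        simp [v] at this
      rcases hirr (K ∙ v) (by
        intro g x hx
        rw [hc g, Matrix.smul_mulVec, Matrix.one_mulVec]
        exact Submodule.smul_mem _ _ hx) with h | h
      · exact hv ((Submodule.span_singleton_eq_bot).mp h)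
      · have h2 : (![0, 1] : Fin 2 → K) ∈ K ∙ v := h ▸ Submodule.mem_top
        obtain ⟨a, ha⟩ := Submodule.mem_span_singleton.mp h2
        have := congrFun ha 1
        simp [v] at this
    obtain ⟨μ, hμ⟩ := Module.End.exists_eigenvalue (Matrix.toLin' (r g₀))
    obtain ⟨w, hw⟩ := hμ.exists_hasEigenvector
    have hw1 : (r g₀).mulVec w = μ • w := by
      have := hw.apply_eq_smul
      rwa [Matrix.toLin'_apply] at this
    set Y : Matrix (Fin 2) (Fin 2) K := r g₀ - μ • 1 with hY
    have hYw : Y.mulVec w = 0 := by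
      rw [hY, Matrix.sub_mulVec, hw1, Matrix.smul_mulVec, Matrix.one_mulVec, sub_self]
    have hYdet : Y.det = 0 := by
      by_contra h
      exact hw.2 ((Matrix.eq_zero_of_mulVec_eq_zero h hYw))
    have hY0 : Y ≠ 0 := fun h => hg₀ μ (sub_eq_zero.mp h)
    refine ⟨X * Y, ?_, by rw [Matrix.det_mul, hYdet, mul_zero], ?_⟩
    · intro h
      apply hY0
      have hu : IsUnit X.det := isUnit_iff_ne_zero.mpr hdet
      have := congrArg (fun M => X⁻¹ * M) h
      simpa [← Matrix.mul_assoc, Matrix.nonsing_inv_mul X hu] using this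
    · intro g
      have : X * Y * r g = X * r (g₀ * g) - μ • (X * r g) := by
        rw [hY, hmul, Matrix.mul_sub, Matrix.sub_mul, Matrix.mul_smul, Matrix.mul_one,
          Matrix.smul_mul, Matrix.mul_assoc]
      rw [this, Matrix.trace_sub, Matrix.trace_smul, hX, hX, smul_zero, sub_zero]
  -- `Z * r h * Z = 0`
  have hZZ : ∀ h, Z * r h * Z = 0 := by
    intro h
    have e := ch_two (Z * r h)
    rw [hZ h, Matrix.det_mul, hZdet, zero_mul, zero_smul, zero_smul, sub_zero] at e
    have e2 : Z * r h * Z * (r h * r h⁻¹) = 0 := by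
      rw [← Matrix.mul_assoc, Matrix.mul_assoc (Z * r h) Z (r h), e, Matrix.zero_mul]
    rwa [← hmul, mul_inv_cancel, h1, Matrix.mul_one] at e2
  let W : Submodule K (Fin 2 → K) := Submodule.span K {x | ∃ h w, x = (r h).mulVec (Z.mulVec w)}
  have hWstab : ∀ g, ∀ x ∈ W, (r g).mulVec x ∈ W := by
    intro g x hx
    induction hx using Submodule.span_induction with
    | mem x hx =>
      obtain ⟨h, w, rfl⟩ := hx
      apply Submodule.subset_span
      exact ⟨g * h, w, by rw [hmul, Matrix.mulVec_mulVec]⟩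
    | zero => rw [Matrix.mulVec_zero]; exact W.zero_mem
    | add x y _ _ hx hy => rw [Matrix.mulVec_add]; exact W.add_mem hx hy
    | smul a x _ hx => rw [Matrix.mulVec_smul]; exact W.smul_mem a hx
  have hWker : ∀ x ∈ W, Z.mulVec x = 0 := by
    intro x hx
    induction hx using Submodule.span_induction with
    | mem x hx =>
      obtain ⟨h, w, rfl⟩ := hx
      rw [Matrix.mulVec_mulVec, Matrix.mulVec_mulVec, hZZ, Matrix.zero_mulVec]
    | zero => rw [Matrix.mulVec_zero]
    | add x y _ _ hx hy => rw [Matrix.mulVec_add, hx, hy, add_zero]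
    | smul a x _ hx => rw [Matrix.mulVec_smul, hx, smul_zero]
  rcases hirr W hWstab with h | h
  · apply hZ0
    ext i j
    have hmem : Z.mulVec (Pi.single j 1) ∈ W :=
      Submodule.subset_span ⟨1, Pi.single j 1, by rw [h1, Matrix.one_mulVec]⟩
    rw [h, Submodule.mem_bot] at hmem
    have := congrFun hmem i
    simpa using this
  · apply hZ0
    ext i j
    have := congrFun (hWker (Pi.single j 1) (h ▸ Submodule.mem_top)) i
    simpa using this

end Fermat.Agent.S31
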