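import Mathlib
import Fermat.Agent.S53.Dict
import Fermat.Agent.S31.TraceAlg

set_option autoImplicit false

namespace Fermat.Agent.S31

open Fermat.Agent.S53 (Gal M2 HasMatrix HasMatrixRes)
open scoped TensorProduct

theorem HasMatrixRes.one {k : Type} [Field k] {ρ : ResidualGaloisRep k} {r : Gal → M2 k}
    (hr : HasMatrixRes ρ r) : r 1 = 1 := by
  obtain ⟨b, hb⟩ := hr
  rw [← hb, map_one]
  exact LinearMap.toMatrix_one b

theorem HasMatrixRes.mul {k : Type} [Field k] {ρ : ResidualGaloisRep k} {r : Gal → M2 k}
    (hr : HasMatrixRes ρ r) (σ τ : Gal) : r (σ * τ) = r σ * r τ := by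
  obtain ⟨b, hb⟩ := hr
  rw [← hb, ← hb, ← hb, map_mul]
  exact LinearMap.toMatrix_mul b _ _

theorem trace_lemma_field {k : Type} [Field k] (ρ : ResidualGaloisRep k)
    (habs : ρ.IsAbsolutelyIrreducible) (r : Gal → M2 k) (hr : HasMatrixRes ρ r)
    (X : M2 k) (hX : ∀ g, (X * r g).trace = 0) : X = 0 := by
  classical
  have h1 := HasMatrixRes.one hr
  have hmul := HasMatrixRes.mul hr
  obtain ⟨b, hb⟩ := hr
  set K := AlgebraicClosure k with hK
  let φ : k →+* K := algebraMap k K
  let B : Module.Basis (Fin 2) K (K ⊗[k] ρ.V) := Algebra.TensorProduct.basis K b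
  have hB : ∀ g, LinearMap.toMatrix B B ((ρ.ρ g).baseChange K) = (r g).map φ := by
    intro g
    have := LinearMap.toMatrix_baseChange K (ρ.ρ g) b b
    rw [hb] at this
    exact this
  have key := trace_lemma_algClosed (K := K) (G := Gal) (fun g => (r g).map φ)
    (by simp only [h1]; exact Matrix.map_one φ (map_zero φ) (map_one φ))
    (by intro a c; simp only [hmul]; exact Matrix.map_mul)
    (by
      intro W hW
      let W' : Submodule K (K ⊗[k] ρ.V) := W.comap B.equivFun.toLinearMap
      have hW' : ∀ σ : Gal, ∀ x ∈ W', (ρ.baseChange K).ρ σ x ∈ W' := by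
        intro σ x hx
        show B.equivFun ((ρ.ρ σ).baseChange K x) ∈ W
        have e : (B.equivFun ((ρ.ρ σ).baseChange K x) : Fin 2 → K) =
            ((r σ).map φ).mulVec (B.equivFun x) := by
          rw [← hB σ]
          exact (LinearMap.toMatrix_mulVec_repr B B _ x).symm
        rw [e]
        exact hW σ _ hx
      rcases habs W' hW' with h | h
      · left
        rw [eq_bot_iff]
        intro x hx
        have : B.equivFun.symm x ∈ W' := by
          show B.equivFun (B.equivFun.symm x) ∈ W
          rwa [LinearEquiv.apply_symm_apply]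
        rw [h, Submodule.mem_bot] at this
        rw [Submodule.mem_bot]
        exact (LinearEquiv.map_eq_zero_iff B.equivFun.symm).mp this
      · right
        rw [eq_top_iff]
        intro x _
        have : B.equivFun.symm x ∈ W' := h ▸ Submodule.mem_top
        have h2 : B.equivFun (B.equivFun.symm x) ∈ W := this
        rwa [LinearEquiv.apply_symm_apply] at h2)
    (X.map φ)
    (by
      intro g
      rw [← Matrix.map_mul]
      have := AddMonoidHom.map_trace φ.toAddMonoidHom (X * r g)
      rw [hX g, map_zero] at this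
      exact this.symm)
  ext i j
  have := congrFun (congrFun key i) j
  simpa using this


theorem m2_eq_sum {R : Type*} [CommRing R] (Y : Matrix (Fin 2) (Fin 2) R) :
    Y = Y 0 0 • Matrix.single 0 0 (1 : R) + Y 0 1 • Matrix.single 0 1 (1 : R) +
      Y 1 0 • Matrix.single 1 0 (1 : R) + Y 1 1 • Matrix.single 1 1 (1 : R) := by
  ext i j
  fin_cases i <;> fin_cases j <;> simp [Matrix.single]

theorem trace_mul_single {R : Type*} [CommRing R] (X : Matrix (Fin 2) (Fin 2) R) (i j : Fin 2) :
    (X * Matrix.single i j (1 : R)).trace = X j i := by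
  fin_cases i <;> fin_cases j <;>
    simp [Matrix.trace_fin_two, Matrix.mul_apply, Fin.sum_univ_two, Matrix.single]

theorem span_eq_top_field {k : Type} [Field k] (ρ : ResidualGaloisRep k)
    (habs : ρ.IsAbsolutelyIrreducible) (r : Gal → M2 k) (hr : HasMatrixRes ρ r) :
    Submodule.span k (Set.range r) = ⊤ := by
  by_contra h
  obtain ⟨f, hf0, hf⟩ := Submodule.exists_le_ker_of_lt_top _ (lt_top_iff_ne_top.mpr h)
  let X : M2 k := Matrix.of fun j i => f (Matrix.single i j 1)
  have hfX : ∀ Y : M2 k, f Y = (X * Y).trace := by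
    intro Y
    conv_lhs => rw [m2_eq_sum Y]
    simp only [map_add, map_smul, smul_eq_mul, Matrix.trace_fin_two, Matrix.mul_apply,
      Fin.sum_univ_two, X, Matrix.of_apply]
    ring
  have hX : X = 0 := trace_lemma_field ρ habs r hr X (fun g => by
    rw [← hfX]
    exact hf (Submodule.subset_span ⟨g, rfl⟩))
  apply hf0
  ext Y
  rw [hfX, hX, Matrix.zero_mul, Matrix.trace_zero]
  rfl

open IsLocalRing in
theorem mem_smul_top_of_entries {A : Type} [CommRing A] [IsLocalRing A] (Y : M2 A)
    (hY : ∀ i j, Y i j ∈ maximalIdeal A) : Y ∈ maximalIdeal A • (⊤ : Submodule A (M2 A)) := by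
  rw [m2_eq_sum Y]
  refine Submodule.add_mem _ (Submodule.add_mem _ (Submodule.add_mem _ ?_ ?_) ?_) ?_ <;>
    exact Submodule.smul_mem_smul (hY _ _) Submodule.mem_top

open IsLocalRing in
theorem span_eq_top_local {A : Type} [CommRing A] [IsLocalRing A] (ρ : GaloisRepAdic A)
    (habs : ρ.residual.IsAbsolutelyIrreducible) (r : Gal → M2 A) (hr : HasMatrix ρ r) :
    Submodule.span A (Set.range r) = ⊤ := by
  have hres := Fermat.Agent.S53.HasMatrix.residual hr
  have hk := span_eq_top_field ρ.residual habs _ hres
  set N := Submodule.span A (Set.range r) with hN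
  set P := N ⊔ maximalIdeal A • (⊤ : Submodule A (M2 A)) with hP
  have hzero : ∀ Y : M2 A, Y.map (residue A) = 0 → Y ∈ P := by
    intro Y hY
    apply Submodule.mem_sup_right
    apply mem_smul_top_of_entries
    intro i j
    have := congrFun (congrFun hY i) j
    exact (residue_eq_zero_iff _).mp this
  have hlift : ∀ Z : M2 (ResidueField A), ∃ Y : M2 A, Y.map (residue A) = Z := by
    intro Z
    choose y hy using fun i j => residue_surjective (Z i j)
    exact ⟨Matrix.of y, by ext i j; exact hy i j⟩
  have key : ∀ Z ∈ Submodule.span (ResidueField A)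
      (Set.range fun σ => (r σ).map (residue A)), ∀ Y : M2 A, Y.map (residue A) = Z → Y ∈ P := by
    intro Z hZ
    induction hZ using Submodule.span_induction with
    | mem Z hZ =>
      obtain ⟨g, rfl⟩ := hZ
      intro Y hY
      have h1 : Y - r g ∈ P := hzero _ (by
        ext i j
        have := congrFun (congrFun hY i) j
        simp only [Matrix.map_apply, Matrix.sub_apply, map_sub, Matrix.zero_apply] at this ⊢
        rw [this, sub_self])
      have h2 : r g ∈ P := Submodule.mem_sup_left (Submodule.subset_span ⟨g, rfl⟩)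
      have := P.add_mem h1 h2
      rwa [sub_add_cancel] at this
    | zero => exact hzero
    | add Z₁ Z₂ _ _ h₁ h₂ =>
      intro Y hY
      obtain ⟨Y₁, hY₁⟩ := hlift Z₁
      have h2 : (Y - Y₁).map (residue A) = Z₂ := by
        ext i j
        have e := congrFun (congrFun hY i) j
        have e1 := congrFun (congrFun hY₁ i) j
        simp only [Matrix.map_apply, Matrix.sub_apply, map_sub, Matrix.add_apply] at e e1 ⊢
        rw [e, e1, add_sub_cancel_left]
      have := P.add_mem (h₂ _ h2) (h₁ _ hY₁)
      rwa [sub_add_cancel] at this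
    | smul c Z₁ _ h₁ =>
      intro Y hY
      obtain ⟨Y₁, hY₁⟩ := hlift Z₁
      obtain ⟨a, rfl⟩ := residue_surjective c
      have h2 : (Y - a • Y₁).map (residue A) = 0 := by
        ext i j
        have e := congrFun (congrFun hY i) j
        have e1 := congrFun (congrFun hY₁ i) j
        simp only [Matrix.map_apply, Matrix.sub_apply, map_sub, Matrix.smul_apply, smul_eq_mul,
          map_mul, Matrix.zero_apply] at e e1 ⊢
        rw [e, e1, sub_self]
      have := P.add_mem (hzero _ h2) (P.smul_mem a (h₁ _ hY₁))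
      rwa [sub_add_cancel] at this
  have hPtop : (⊤ : Submodule A (M2 A)) ≤ N ⊔ maximalIdeal A • (⊤ : Submodule A (M2 A)) := by
    intro Y _
    exact key _ (hk ▸ Submodule.mem_top) Y rfl
  rw [eq_top_iff]
  refine Submodule.le_of_le_smul_of_le_jacobson_bot (Module.Finite.fg_top) ?_ hPtop
  rw [IsLocalRing.jacobson_eq_maximalIdeal ⊥ bot_ne_top]

theorem eq_zero_of_trace {A : Type} [CommRing A] [IsLocalRing A] (ρ : GaloisRepAdic A)
    (habs : ρ.residual.IsAbsolutelyIrreducible) (r : Gal → M2 A) (hr : HasMatrix ρ r)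
    (X : M2 A) (hX : ∀ g, (X * r g).trace = 0) : X = 0 := by
  have htop := span_eq_top_local ρ habs r hr
  have key : ∀ Y ∈ Submodule.span A (Set.range r), (X * Y).trace = 0 := by
    intro Y hY
    induction hY using Submodule.span_induction with
    | mem Y hY => obtain ⟨g, rfl⟩ := hY; exact hX g
    | zero => simp
    | add Y₁ Y₂ _ _ h₁ h₂ => rw [Matrix.mul_add, Matrix.trace_add, h₁, h₂, add_zero]
    | smul a Y _ h => rw [Matrix.mul_smul, Matrix.trace_smul, h, smul_zero]
  ext i j
  rw [← trace_mul_single X j i]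
  exact key _ (htop ▸ Submodule.mem_top)

/-- **Trace lemma.** If translation by `σ` does not change the trace function of a residually
absolutely irreducible representation, then `σ` acts trivially. -/
theorem eq_one_of_trace {A : Type} [CommRing A] [IsLocalRing A] (ρ : GaloisRepAdic A)
    (habs : ρ.residual.IsAbsolutelyIrreducible) (σ : Gal)
    (h : ∀ g : Gal, ρ.trace (σ * g) = ρ.trace g) : ρ.ρ σ = 1 := by
  obtain ⟨r, hr⟩ := Fermat.Agent.S53.exists_hasMatrix ρ
  have hmul := Fermat.Agent.S53.HasMatrix.map_mul hr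
  have h0 := eq_zero_of_trace ρ habs r hr (r σ - 1) (fun g => by
    obtain ⟨b, hb⟩ := hr
    have e1 := h g
    unfold GaloisRepAdic.trace at e1
    rw [LinearMap.trace_eq_matrix_trace A b, LinearMap.trace_eq_matrix_trace A b, hb, hb] at e1
    rw [Matrix.sub_mul, Matrix.one_mul, ← hmul, Matrix.trace_sub, e1, sub_self])
  obtain ⟨b, hb⟩ := hr
  apply (LinearMap.toMatrix b b).injective
  rw [hb, sub_eq_zero.mp h0]
  exact (LinearMap.toMatrix_one b).symm

end Fermat.Agent.S31
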